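import Mathlib
import Fermat.Agent.LT.T6.Spec

/-!
# Row LT, tower T6, leaf T6.08 (helper420): topology of an abstract local field

`k` a field with `Valued k ℤᵐ⁰` satisfying `IsLocalField k q` (T6 Spec): the closed unit ball is
compact, `k` is locally compact and sigma-compact, valuation-preserving ring automorphisms are
continuous.  Mathlib + T6 Spec only.
-/

set_option autoImplicit false

noncomputable section

namespace Fermat.Agent.LT.T6.H420

open Topology Filter Set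

section ValTop

variable {k : Type} [Field k] [Valued k Γ₀]

/-- In `ℤᵐ⁰`, `x < exp a` iff `x ≤ exp (a - 1)`. -/
theorem lt_exp_iff_le (x : Γ₀) (a : ℤ) : x < WithZero.exp a ↔ x ≤ WithZero.exp (a - 1) := by
  rcases eq_or_ne x 0 with rfl | hx
  · simp
  · obtain ⟨b, rfl⟩ : ∃ b : ℤ, x = WithZero.exp b := ⟨_, (WithZero.exp_log hx).symm⟩
    rw [WithZero.exp_lt_exp, WithZero.exp_le_exp]
    omega

/-- Every nonzero element of `ℤᵐ⁰` dominates some `exp (-m)`, `m : ℕ`. -/
theorem exists_exp_neg_lt (g : Γ₀) (hg : g ≠ 0) : ∃ m : ℕ, WithZero.exp (-(m : ℤ)) < g := by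
  obtain ⟨b, rfl⟩ : ∃ b : ℤ, g = WithZero.exp b := ⟨_, (WithZero.exp_log hg).symm⟩
  refine ⟨(1 - b).toNat, ?_⟩
  rw [WithZero.exp_lt_exp]
  omega

theorem val_pow_unif {ϖ : k} (hϖ : Valued.v ϖ = WithZero.exp (-1 : ℤ)) (m : ℕ) :
    Valued.v (ϖ ^ m) = WithZero.exp (-(m : ℤ)) := by
  rw [map_pow, hϖ, ← WithZero.exp_nsmul]
  simp

/-- Neighbourhoods in terms of the closed balls of radius `exp (-m)`. -/
theorem mem_nhds_iff_exp {ϖ : k} (hϖ : Valued.v ϖ = WithZero.exp (-1 : ℤ)) {s : Set k} {x : k} :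
    s ∈ 𝓝 x ↔ ∃ m : ℕ, {y | Valued.v (y - x) ≤ WithZero.exp (-(m : ℤ))} ⊆ s := by
  rw [Valued.mem_nhds]
  constructor
  · rintro ⟨γ, hγ⟩
    obtain ⟨m, hm⟩ := exists_exp_neg_lt (MonoidWithZeroHom.ValueGroup₀.embedding γ.1)
      ((map_ne_zero _).2 γ.ne_zero)
    refine ⟨m, fun y hy => hγ ?_⟩
    show Valued.v.restrict (y - x) < γ.1
    rw [Valuation.restrict_lt_iff_lt_embedding]
    exact lt_of_le_of_lt hy hm
  · rintro ⟨m, hm⟩
    have h0 : (Valued.v : Valuation k Γ₀).restrict (ϖ ^ m) ≠ 0 := by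
      rw [Ne, Valuation.restrict_eq_zero_iff, val_pow_unif hϖ]
      exact WithZero.exp_ne_zero
    refine ⟨Units.mk0 _ h0, fun y hy => hm ?_⟩
    have h1 : (Valued.v : Valuation k Γ₀).restrict (y - x)
        < (Valued.v : Valuation k Γ₀).restrict (ϖ ^ m) := hy
    rw [Valuation.restrict_lt_iff, val_pow_unif hϖ] at h1
    exact h1.le

/-- Closed balls are open. -/
theorem isOpen_cball {ϖ : k} (hϖ : Valued.v ϖ = WithZero.exp (-1 : ℤ)) (c : k) (m : ℕ) :
    IsOpen {y : k | Valued.v (y - c) ≤ WithZero.exp (-(m : ℤ))} := by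
  rw [isOpen_iff_mem_nhds]
  intro x hx
  rw [mem_nhds_iff_exp hϖ]
  refine ⟨m, fun y hy => ?_⟩
  have : y - c = (y - x) + (x - c) := by ring
  show Valued.v (y - c) ≤ _
  rw [this]
  exact (Valued.v.map_add _ _).trans (max_le hy hx)

/-- Closed balls are closed. -/
theorem isClosed_cball {ϖ : k} (hϖ : Valued.v ϖ = WithZero.exp (-1 : ℤ)) (c : k) (m : ℕ) :
    IsClosed {y : k | Valued.v (y - c) ≤ WithZero.exp (-(m : ℤ))} := by
  rw [← isOpen_compl_iff, isOpen_iff_mem_nhds]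
  intro x hx
  rw [mem_nhds_iff_exp hϖ]
  refine ⟨m, fun y hy hyc => hx ?_⟩
  have : x - c = (y - c) - (y - x) := by ring
  show Valued.v (x - c) ≤ _
  rw [this]
  exact (Valued.v.map_sub _ _).trans (max_le hyc hy)

/-- Finite `exp (-m)`-nets of the unit ball. -/
theorem exists_finite_approx {q : ℕ} (h : IsLocalField k q) (m : ℕ) :
    ∃ A : Finset k, ∀ z : k, Valued.v z ≤ 1 →
      ∃ a ∈ A, Valued.v (z - a) ≤ WithZero.exp (-(m : ℤ)) := by
  obtain ⟨ϖ, hϖ⟩ := h.unif
  obtain ⟨T, -, -, -, hT⟩ := h.residue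
  induction m with
  | zero => exact ⟨{0}, fun z hz => ⟨0, by simp, by simpa using hz⟩⟩
  | succ m ih =>
    obtain ⟨A, hA⟩ := ih
    classical
    refine ⟨(A ×ˢ T).image (fun p => p.1 + ϖ ^ m * p.2), fun z hz => ?_⟩
    obtain ⟨a, ha, hza⟩ := hA z hz
    have hϖm : Valued.v (ϖ ^ m) = WithZero.exp (-(m : ℤ)) := val_pow_unif hϖ m
    have hϖ0 : ϖ ^ m ≠ 0 := by
      intro h0
      rw [h0, map_zero] at hϖm
      exact WithZero.exp_ne_zero hϖm.symm
    have hw1 : Valued.v ((z - a) / ϖ ^ m) ≤ 1 := by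
      rw [map_div₀, hϖm]
      exact div_le_one_of_le₀ hza zero_le
    obtain ⟨t, ht, hwt⟩ := hT _ hw1
    refine ⟨a + ϖ ^ m * t, Finset.mem_image.2 ⟨(a, t), Finset.mem_product.2 ⟨ha, ht⟩, rfl⟩, ?_⟩
    have hz : z - (a + ϖ ^ m * t) = ϖ ^ m * ((z - a) / ϖ ^ m - t) := by
      field_simp
      ring
    rw [hz, map_mul, hϖm]
    have hwt' : Valued.v ((z - a) / ϖ ^ m - t) ≤ WithZero.exp (-1 : ℤ) := by
      have := (lt_exp_iff_le (Valued.v ((z - a) / ϖ ^ m - t)) 0).1 (by simpa using hwt)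
      simpa using this
    calc WithZero.exp (-(m : ℤ)) * Valued.v ((z - a) / ϖ ^ m - t)
        ≤ WithZero.exp (-(m : ℤ)) * WithZero.exp (-1 : ℤ) := by gcongr
      _ = WithZero.exp (-((m + 1 : ℕ) : ℤ)) := by
          rw [← WithZero.exp_add]
          congr 1
          push_cast
          ring

/-- The closed unit ball of a local field is compact. -/
theorem isCompact_unitBall {q : ℕ} (h : IsLocalField k q) :
    IsCompact {x : k | Valued.v x ≤ 1} := by
  have hc : CompleteSpace k := h.complete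
  obtain ⟨ϖ, hϖ⟩ := h.unif
  rw [isCompact_iff_totallyBounded_isComplete]
  refine ⟨?_, IsClosed.isComplete ?_⟩
  · rw [(Valued.hasBasis_uniformity k Γ₀).totallyBounded_iff]
    intro γ _
    obtain ⟨m, hm⟩ := exists_exp_neg_lt (MonoidWithZeroHom.ValueGroup₀.embedding γ.1)
      ((map_ne_zero _).2 γ.ne_zero)
    obtain ⟨A, hA⟩ := exists_finite_approx h m
    refine ⟨A, A.finite_toSet, fun z hz => ?_⟩
    obtain ⟨a, ha, hza⟩ := hA z hz
    simp only [mem_iUnion]
    refine ⟨a, ha, ?_⟩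
    show Valued.v.restrict (a - z) < γ.1
    rw [Valuation.restrict_lt_iff_lt_embedding, Valuation.map_sub_swap]
    exact lt_of_le_of_lt hza hm
  · have := isClosed_cball hϖ (0 : k) 0
    simpa using this

/-- A local field is locally compact. -/
theorem locallyCompactSpace_of_isLocalField {q : ℕ} (h : IsLocalField k q) :
    LocallyCompactSpace k := by
  obtain ⟨ϖ, hϖ⟩ := h.unif
  refine IsCompact.locallyCompactSpace_of_mem_nhds_of_addGroup (isCompact_unitBall h)
    (x := 0) ?_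
  have h0 : (0 : k) ∈ {y : k | Valued.v (y - 0) ≤ WithZero.exp (-((0 : ℕ) : ℤ))} := by
    simp
  have := (isOpen_cball hϖ (0 : k) 0).mem_nhds h0
  simpa using this

/-- A local field is sigma-compact. -/
theorem sigmaCompactSpace_of_isLocalField {q : ℕ} (h : IsLocalField k q) :
    SigmaCompactSpace k := by
  obtain ⟨ϖ, hϖ⟩ := h.unif
  have hϖ0 : ϖ ≠ 0 := by
    intro h0
    rw [h0, map_zero] at hϖ
    exact WithZero.exp_ne_zero hϖ.symm
  refine SigmaCompactSpace.of_countable (Set.range fun m : ℕ =>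
    (fun x : k => x / ϖ ^ m) '' {x : k | Valued.v x ≤ 1}) (Set.countable_range _) ?_ ?_
  · rintro _ ⟨m, rfl⟩
    exact (isCompact_unitBall h).image (by fun_prop)
  · rw [Set.sUnion_range, Set.eq_univ_iff_forall]
    intro x
    rcases eq_or_ne x 0 with rfl | hx
    · exact Set.mem_iUnion.2 ⟨0, 0, by simp, by simp⟩
    · have hvx : Valued.v x ≠ 0 := (Valuation.ne_zero_iff _).2 hx
      obtain ⟨b, hb⟩ : ∃ b : ℤ, Valued.v x = WithZero.exp b :=
        ⟨_, (WithZero.exp_log hvx).symm⟩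
      refine Set.mem_iUnion.2 ⟨b.toNat, x * ϖ ^ b.toNat, ?_, ?_⟩
      · show Valued.v (x * ϖ ^ b.toNat) ≤ 1
        rw [map_mul, val_pow_unif hϖ, hb, ← WithZero.exp_add, ← WithZero.exp_zero,
          WithZero.exp_le_exp]
        omega
      · field_simp

/-- A valuation-preserving ring automorphism is continuous. -/
theorem continuous_of_val_eq {q : ℕ} (h : IsLocalField k q) (s : k ≃+* k)
    (hs : ∀ y : k, Valued.v (s y) = Valued.v y) : Continuous s := by
  obtain ⟨ϖ, hϖ⟩ := h.unif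
  rw [continuous_iff_continuousAt]
  intro x
  rw [ContinuousAt, Filter.tendsto_def]
  intro t ht
  rw [mem_nhds_iff_exp hϖ] at ht ⊢
  obtain ⟨m, hm⟩ := ht
  refine ⟨m, fun y hy => hm ?_⟩
  show Valued.v (s y - s x) ≤ _
  rw [← map_sub, hs]
  exact hy

end ValTop

end Fermat.Agent.LT.T6.H420
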