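import Mathlib
import Fermat.Agent.LT.T6.Spec
import Fermat.Agent.LT.T6.H420.ValTop

/-!
# Row LT, tower T6, leaf T6.08 (helper420): topology of `GL₂` of an abstract local field

`GL₂(k)` is a sigma-compact locally compact Hausdorff topological group; the congruence subgroups
`U(n)` (T6 Spec `InU`) are open compact subgroups; `glAut s` is continuous for a
valuation-preserving automorphism `s`.  Mathlib + T6 Spec only.
-/

set_option autoImplicit false

noncomputable section

namespace Fermat.Agent.LT.T6.H420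

open Topology Filter Set Matrix

section GLTop

variable {k : Type} [Field k] [Valued k Γ₀]

/-- Matrices all of whose entries have valuation `≤ exp (-n)`. -/
def matSmall (n : ℕ) : Set (Matrix (Fin 2) (Fin 2) k) :=
  {M | ∀ i j, Valued.v (M i j) ≤ WithZero.exp (-(n : ℤ))}

/-- Matrices congruent to `1` modulo `ϖⁿ`. -/
def matBall (n : ℕ) : Set (Matrix (Fin 2) (Fin 2) k) :=
  {M | ∀ i j, Valued.v (M i j - (1 : Matrix (Fin 2) (Fin 2) k) i j) ≤ WithZero.exp (-(n : ℤ))}

theorem mem_matBall_iff (n : ℕ) (M : Matrix (Fin 2) (Fin 2) k) :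
    M ∈ matBall n ↔ M - 1 ∈ matSmall (k := k) n := Iff.rfl

theorem matSmall_add {n : ℕ} {A B : Matrix (Fin 2) (Fin 2) k} (hA : A ∈ matSmall n)
    (hB : B ∈ matSmall n) : A + B ∈ matSmall n := fun i j => by
  rw [Matrix.add_apply]
  exact (Valued.v.map_add _ _).trans (max_le (hA i j) (hB i j))

theorem exp_neg_nat_le_one (n : ℕ) : (WithZero.exp (-(n : ℤ)) : Γ₀) ≤ 1 := by
  rw [← WithZero.exp_zero, WithZero.exp_le_exp]
  omega

theorem matSmall_mul {n : ℕ} {A B : Matrix (Fin 2) (Fin 2) k} (hA : A ∈ matSmall n)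
    (hB : B ∈ matSmall n) : A * B ∈ matSmall n := fun i j => by
  rw [Matrix.mul_apply]
  refine Valued.v.map_sum_le fun l _ => ?_
  rw [map_mul]
  calc Valued.v (A i l) * Valued.v (B l j) ≤ 1 * WithZero.exp (-(n : ℤ)) :=
        mul_le_mul' ((hA i l).trans (exp_neg_nat_le_one n)) (hB l j)
    _ = WithZero.exp (-(n : ℤ)) := one_mul _

theorem one_mem_matBall (n : ℕ) : (1 : Matrix (Fin 2) (Fin 2) k) ∈ matBall n := fun i j => by
  simp

theorem matBall_mul {n : ℕ} {A B : Matrix (Fin 2) (Fin 2) k} (hA : A ∈ matBall n)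
    (hB : B ∈ matBall n) : A * B ∈ matBall n := by
  rw [mem_matBall_iff] at hA hB ⊢
  have h : A * B - 1 = (A - 1) * (B - 1) + ((A - 1) + (B - 1)) := by noncomm_ring
  rw [h]
  exact matSmall_add (matSmall_mul hA hB) (matSmall_add hA hB)

theorem inU_iff (n : ℕ) (g : GL (Fin 2) k) :
    InU n g ↔ (g : Matrix (Fin 2) (Fin 2) k) ∈ matBall n ∧
      ((g⁻¹ : GL (Fin 2) k) : Matrix (Fin 2) (Fin 2) k) ∈ matBall n := by
  constructor
  · intro h
    exact ⟨fun i j => (h i j).1, fun i j => (h i j).2⟩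
  · rintro ⟨h1, h2⟩ i j
    exact ⟨h1 i j, h2 i j⟩

/-- The congruence subgroup `U(n)` as a subgroup of `GL₂(k)`. -/
def subU (n : ℕ) : Subgroup (GL (Fin 2) k) where
  carrier := {g | InU n g}
  one_mem' := by
    show InU n 1
    rw [inU_iff]
    simpa using one_mem_matBall (k := k) n
  mul_mem' := by
    intro a b ha hb
    have ha' := (inU_iff n a).1 ha
    have hb' := (inU_iff n b).1 hb
    show InU n (a * b)
    rw [inU_iff]
    refine ⟨?_, ?_⟩
    · rw [Units.val_mul]
      exact matBall_mul ha'.1 hb'.1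
    · rw [_root_.mul_inv_rev, Units.val_mul]
      exact matBall_mul hb'.2 ha'.2
  inv_mem' := by
    intro a ha
    have ha' := (inU_iff n a).1 ha
    show InU n a⁻¹
    rw [inU_iff, inv_inv]
    exact ⟨ha'.2, ha'.1⟩

theorem mem_subU_iff (n : ℕ) (g : GL (Fin 2) k) : g ∈ subU n ↔ InU n g := Iff.rfl

theorem matBall_eq_pi (n : ℕ) :
    (matBall n : Set (Matrix (Fin 2) (Fin 2) k)) =
      Set.pi Set.univ fun i : Fin 2 => Set.pi Set.univ fun j : Fin 2 =>
        {x : k | Valued.v (x - (1 : Matrix (Fin 2) (Fin 2) k) i j) ≤ WithZero.exp (-(n : ℤ))} := by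
  ext M
  constructor
  · intro hM i _ j _
    exact hM i j
  · intro hM i j
    exact hM i (Set.mem_univ i) j (Set.mem_univ j)

theorem isOpen_matBall {ϖ : k} (hϖ : Valued.v ϖ = WithZero.exp (-1 : ℤ)) (n : ℕ) :
    IsOpen (matBall n : Set (Matrix (Fin 2) (Fin 2) k)) := by
  rw [matBall_eq_pi]
  exact isOpen_set_pi Set.finite_univ fun i _ =>
    isOpen_set_pi Set.finite_univ fun j _ => isOpen_cball hϖ _ n

theorem isCompact_cball {q : ℕ} (h : IsLocalField k q) (c : k) (hc : Valued.v c ≤ 1) (n : ℕ) :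
    IsCompact {x : k | Valued.v (x - c) ≤ WithZero.exp (-(n : ℤ))} := by
  obtain ⟨ϖ, hϖ⟩ := h.unif
  refine (isCompact_unitBall h).of_isClosed_subset (isClosed_cball hϖ c n) fun x hx => ?_
  have hx' : Valued.v (x - c) ≤ WithZero.exp (-(n : ℤ)) := hx
  have : x = (x - c) + c := by ring
  show Valued.v x ≤ 1
  rw [this]
  exact (Valued.v.map_add _ _).trans (max_le (hx'.trans (exp_neg_nat_le_one n)) hc)

theorem val_one_apply_le (i j : Fin 2) :
    Valued.v ((1 : Matrix (Fin 2) (Fin 2) k) i j) ≤ 1 := by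
  by_cases hij : i = j
  · subst hij
    simp
  · simp [Matrix.one_apply_ne hij]

theorem isCompact_matBall {q : ℕ} (h : IsLocalField k q) (n : ℕ) :
    IsCompact (matBall n : Set (Matrix (Fin 2) (Fin 2) k)) := by
  rw [matBall_eq_pi]
  exact isCompact_univ_pi fun i => isCompact_univ_pi fun j =>
    isCompact_cball h _ (val_one_apply_le i j) n

theorem subU_eq_preimage (n : ℕ) :
    ((subU n : Subgroup (GL (Fin 2) k)) : Set (GL (Fin 2) k)) =
      Units.embedProduct (Matrix (Fin 2) (Fin 2) k) ⁻¹'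
        ((matBall n) ×ˢ (MulOpposite.opHomeomorph.symm ⁻¹' (matBall n))) := by
  ext g
  simp only [SetLike.mem_coe, mem_subU_iff, inU_iff, Set.mem_preimage, Set.mem_prod,
    Units.embedProduct_apply]
  rfl

theorem isOpen_subU {ϖ : k} (hϖ : Valued.v ϖ = WithZero.exp (-1 : ℤ)) (n : ℕ) :
    IsOpen ((subU n : Subgroup (GL (Fin 2) k)) : Set (GL (Fin 2) k)) := by
  rw [subU_eq_preimage]
  exact ((isOpen_matBall hϖ n).prod
    ((isOpen_matBall hϖ n).preimage MulOpposite.opHomeomorph.symm.continuous)).preimage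
    Units.continuous_embedProduct

theorem isCompact_subU {q : ℕ} (h : IsLocalField k q) (n : ℕ) :
    IsCompact ((subU n : Subgroup (GL (Fin 2) k)) : Set (GL (Fin 2) k)) := by
  rw [subU_eq_preimage]
  refine Units.isClosedEmbedding_embedProduct.isCompact_preimage ?_
  exact (isCompact_matBall h n).prod
    ((MulOpposite.opHomeomorph.symm.isCompact_preimage).2 (isCompact_matBall h n))

theorem locallyCompactSpace_GL {q : ℕ} (h : IsLocalField k q) :
    LocallyCompactSpace (GL (Fin 2) k) := by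
  haveI : LocallyCompactSpace k := locallyCompactSpace_of_isLocalField h
  haveI : LocallyCompactSpace (Matrix (Fin 2) (Fin 2) k) :=
    inferInstanceAs (LocallyCompactSpace (Fin 2 → Fin 2 → k))
  exact Units.isClosedEmbedding_embedProduct.locallyCompactSpace

theorem sigmaCompactSpace_GL {q : ℕ} (h : IsLocalField k q) :
    SigmaCompactSpace (GL (Fin 2) k) := by
  haveI : SigmaCompactSpace k := sigmaCompactSpace_of_isLocalField h
  haveI : SigmaCompactSpace (Matrix (Fin 2) (Fin 2) k) :=
    inferInstanceAs (SigmaCompactSpace (Fin 2 → Fin 2 → k))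
  haveI : SigmaCompactSpace (Matrix (Fin 2) (Fin 2) k)ᵐᵒᵖ :=
    MulOpposite.opHomeomorph.symm.isClosedEmbedding.sigmaCompactSpace
  exact Units.isClosedEmbedding_embedProduct.sigmaCompactSpace

theorem continuous_glAut {q : ℕ} (h : IsLocalField k q) (s : k ≃+* k)
    (hs : ∀ y : k, Valued.v (s y) = Valued.v y) : Continuous (glAut s) := by
  have hc : Continuous (s : k →+* k) := continuous_of_val_eq h s hs
  exact hc.generalLinearGroup_map

end GLTop

end Fermat.Agent.LT.T6.H420
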