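import Mathlib
import Fermat.Agent.LT.T6.Spec
import Fermat.Agent.LT.T6.H847.EllRamSpec
import Fermat.Agent.LT.H129.EllParamSpec
import Fermat.Agent.LT.T6.H420.GLTop

/-!
# Row LT, tower T6, sub-leaf T6.14b.L1 (helper420): `LatDecompC129`

`GL₂(k) = ⋃ Π^ℤ · latGL n ξ · GL₂(𝒪)`: every `x ∈ GL₂(k)` is `t · latGL n ξ · u`, `t = νᵐ` or
`νᵐ Π`, `ξ ∈ B n`, `u ∈ GL₂(𝒪)`.  UNCONDITIONAL (the special case `ξ = 0` of `LatOrbitExC129` is
proved inline).

Proof.  `N(a, b) = a² + τ a b + ν b²`, `|N(a, b)| = max(|a|², exp(-1) |b|²)` (`val_nrm`).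
Columns `c₁ = (p, p')`, `c₂ = (r, r')` of `x`; after a swap `|N c₂| ≤ |N c₁|`.
(I1) `x = e(p, p') · !![1, a; 0, b]`, `a + b Π = c₂ / c₁` integral; (I2) `b = νⁿ · unit`;
(I3) `e(p, p') = t · e(a₁, b₁)`, `|a₁| = 1 ≥ |b₁|`; (I4) `e(a₁, b₁) diag(1, νⁿ) = latMat n ξ' · u₂`,
`ξ' ∈ B n` the representative of `b₁ / a₁`.

Mathlib + T6 Spec + the two sub-spec files (byte-identical) + `H420/GLTop` (the subgroup `subU`).
-/

set_option autoImplicit false

noncomputable section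

namespace Fermat.Agent.LT.T6.H420

open Matrix Fermat.Agent.LT.T6.H847 Fermat.Agent.LT.H129

section ValBasics

/-- Discreteness of `ℤᵐ⁰`: `x < y` implies `x ≤ exp (-1) * y`. -/
theorem le_exp_neg_one_mul_of_lt {x y : Γ₀} (h : x < y) : x ≤ WithZero.exp (-1 : ℤ) * y := by
  have hy : y ≠ 0 := ne_of_gt (lt_of_le_of_lt zero_le h)
  rcases eq_or_ne x 0 with rfl | hx
  · exact zero_le
  · obtain ⟨a, rfl⟩ : ∃ a : ℤ, x = WithZero.exp a := ⟨_, (WithZero.exp_log hx).symm⟩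
    obtain ⟨b, rfl⟩ : ∃ b : ℤ, y = WithZero.exp b := ⟨_, (WithZero.exp_log hy).symm⟩
    rw [← WithZero.exp_add, WithZero.exp_le_exp]
    rw [WithZero.exp_lt_exp] at h
    omega

theorem lt_one_iff_le_exp_neg_one {x : Γ₀} : x < 1 ↔ x ≤ WithZero.exp (-1 : ℤ) := by
  have := lt_exp_iff_le x 0
  simpa using this

variable {k : Type} [Field k] [Valued k Γ₀]

theorem val_zpow_unif {ν : k} (hν : Valued.v ν = WithZero.exp (-1 : ℤ)) (m : ℤ) :
    Valued.v (ν ^ m) = WithZero.exp (-m) := by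
  rw [map_zpow₀, hν, ← WithZero.exp_zsmul]
  simp

theorem unif_ne_zero {ν : k} (hν : Valued.v ν = WithZero.exp (-1 : ℤ)) : ν ≠ 0 := by
  intro h0
  rw [h0, map_zero] at hν
  exact WithZero.exp_ne_zero hν.symm

/-- Every non-zero `x` has the valuation of a power of the uniformiser. -/
theorem exists_zpow_val_eq {ν : k} (hν : Valued.v ν = WithZero.exp (-1 : ℤ)) {x : k}
    (hx : x ≠ 0) : ∃ m : ℤ, Valued.v (ν ^ m) = Valued.v x := by
  have hvx : Valued.v x ≠ 0 := (Valuation.ne_zero_iff _).2 hx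
  refine ⟨-WithZero.log (Valued.v x), ?_⟩
  rw [val_zpow_unif hν, neg_neg, WithZero.exp_log hvx]

/-- Every non-zero integral `x` has the valuation of a non-negative power of the uniformiser. -/
theorem exists_pow_val_eq {ν : k} (hν : Valued.v ν = WithZero.exp (-1 : ℤ)) {x : k}
    (hx : x ≠ 0) (hx1 : Valued.v x ≤ 1) : ∃ n : ℕ, Valued.v (ν ^ n) = Valued.v x := by
  have hvx : Valued.v x ≠ 0 := (Valuation.ne_zero_iff _).2 hx
  obtain ⟨b, hb⟩ : ∃ b : ℤ, Valued.v x = WithZero.exp b := ⟨_, (WithZero.exp_log hvx).symm⟩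
  have hb0 : b ≤ 0 := by
    rw [hb, ← WithZero.exp_zero, WithZero.exp_le_exp] at hx1
    exact hx1
  refine ⟨(-b).toNat, ?_⟩
  rw [val_pow_unif hν, hb, WithZero.exp_inj]
  omega

end ValBasics

section Norm

variable {k : Type} [Field k] [Valued k Γ₀]

/-- The norm form `N(a + b Π) = a² + τ a b + ν b²` of `k[Π]`, `Π² = τ Π - ν`. -/
def nrm (τ ν a b : k) : k := a ^ 2 + τ * a * b + ν * b ^ 2

omit [Valued k Γ₀] in
theorem det_embMat (τ ν a b : k) : (embMat τ ν a b).det = nrm τ ν a b := by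
  rw [embMat, Matrix.det_fin_two_of, nrm]
  ring

omit [Valued k Γ₀] in
theorem nrm_mul (τ ν p p' a b : k) :
    nrm τ ν p p' * nrm τ ν a b = nrm τ ν (p * a - ν * p' * b) (p * b + p' * a + τ * p' * b) := by
  unfold nrm
  ring

omit [Valued k Γ₀] in
theorem embMat_mul (τ ν p p' a b : k) :
    embMat τ ν p p' * embMat τ ν a b
      = embMat τ ν (p * a - ν * p' * b) (p * b + p' * a + τ * p' * b) := by
  unfold embMat
  rw [Matrix.mul_fin_two]
  congr 1
  ext i j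
  fin_cases i <;> fin_cases j <;> simp <;> ring

/-- `|N(a, b)| = max(|a|², exp(-1) |b|²)`. -/
theorem val_nrm {τ ν : k} (hν : Valued.v ν = WithZero.exp (-1 : ℤ)) (hτ : Valued.v τ < 1)
    (a b : k) :
    Valued.v (nrm τ ν a b)
      = max (Valued.v a ^ 2) (WithZero.exp (-1 : ℤ) * Valued.v b ^ 2) := by
  have hτ' : Valued.v τ ≤ WithZero.exp (-1 : ℤ) := lt_one_iff_le_exp_neg_one.1 hτ
  rcases eq_or_ne a 0 with rfl | ha
  · have : nrm τ ν 0 b = ν * b ^ 2 := by unfold nrm; ring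
    rw [this, map_mul, map_pow, hν, map_zero]
    simp
  rcases eq_or_ne b 0 with rfl | hb
  · have : nrm τ ν a 0 = a ^ 2 := by unfold nrm; ring
    rw [this, map_pow, map_zero]
    simp
  have hva : Valued.v a ≠ 0 := (Valuation.ne_zero_iff _).2 ha
  have hvb : Valued.v b ≠ 0 := (Valuation.ne_zero_iff _).2 hb
  obtain ⟨x, hx⟩ : ∃ x : ℤ, Valued.v a = WithZero.exp x := ⟨_, (WithZero.exp_log hva).symm⟩
  obtain ⟨y, hy⟩ : ∃ y : ℤ, Valued.v b = WithZero.exp y := ⟨_, (WithZero.exp_log hvb).symm⟩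
  have h1 : Valued.v (a ^ 2) = WithZero.exp (2 * x) := by
    rw [map_pow, hx, ← WithZero.exp_nsmul]
    simp
  have h2 : Valued.v (ν * b ^ 2) = WithZero.exp (2 * y - 1) := by
    rw [map_mul, map_pow, hν, hy, ← WithZero.exp_nsmul, ← WithZero.exp_add]
    congr 1
    simp
    ring
  have h3 : Valued.v (τ * a * b) ≤ WithZero.exp (x + y - 1) := by
    rw [map_mul, map_mul, hx, hy]
    calc Valued.v τ * WithZero.exp x * WithZero.exp y
        ≤ WithZero.exp (-1 : ℤ) * WithZero.exp x * WithZero.exp y := by gcongr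
      _ = WithZero.exp (x + y - 1) := by
          rw [← WithZero.exp_add, ← WithZero.exp_add]
          congr 1
          ring
  have hmax1 : Valued.v a ^ 2 = WithZero.exp (2 * x) := by rw [← map_pow, h1]
  have hmax2 : WithZero.exp (-1 : ℤ) * Valued.v b ^ 2 = WithZero.exp (2 * y - 1) := by
    rw [← hν, ← map_pow, ← map_mul, h2]
  rw [hmax1, hmax2]
  rcases lt_or_ge (2 * y - 1) (2 * x) with hxy | hxy
  · -- `a²` dominates
    have hlt : Valued.v (τ * a * b + ν * b ^ 2) < Valued.v (a ^ 2) := by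
      rw [h1]
      refine Valuation.map_add_lt _ (lt_of_le_of_lt h3 ?_) ?_
      · rw [WithZero.exp_lt_exp]; omega
      · rw [h2, WithZero.exp_lt_exp]; exact hxy
    have : nrm τ ν a b = a ^ 2 + (τ * a * b + ν * b ^ 2) := by unfold nrm; ring
    rw [this, Valuation.map_add_eq_of_lt_left _ hlt, h1, max_eq_left]
    rw [WithZero.exp_le_exp]
    omega
  · -- `ν b²` dominates
    have hxy' : 2 * x < 2 * y - 1 := by omega
    have hlt : Valued.v (a ^ 2 + τ * a * b) < Valued.v (ν * b ^ 2) := by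
      rw [h2]
      refine Valuation.map_add_lt _ ?_ (lt_of_le_of_lt h3 ?_)
      · rw [h1, WithZero.exp_lt_exp]; exact hxy'
      · rw [WithZero.exp_lt_exp]; omega
    have : nrm τ ν a b = (a ^ 2 + τ * a * b) + ν * b ^ 2 := by unfold nrm; ring
    rw [this, Valuation.map_add_eq_of_lt_right _ hlt, h2, max_eq_right]
    rw [WithZero.exp_le_exp]
    omega

theorem nrm_ne_zero {τ ν : k} (hν : Valued.v ν = WithZero.exp (-1 : ℤ)) (hτ : Valued.v τ < 1)
    {a b : k} (h : a ≠ 0 ∨ b ≠ 0) : nrm τ ν a b ≠ 0 := by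
  intro h0
  have := val_nrm hν hτ a b
  rw [h0, map_zero] at this
  have hmax := this.symm
  rcases h with ha | hb
  · have h1 : Valued.v a ^ 2 ≤ 0 := hmax ▸ le_max_left _ _
    have h2 : Valued.v a ^ 2 = 0 := le_antisymm h1 zero_le
    exact ha ((Valuation.zero_iff _).1 ((pow_eq_zero_iff (two_ne_zero)).1 h2))
  · have h1 : WithZero.exp (-1 : ℤ) * Valued.v b ^ 2 ≤ 0 := hmax ▸ le_max_right _ _
    have h2 : WithZero.exp (-1 : ℤ) * Valued.v b ^ 2 = 0 := le_antisymm h1 zero_le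
    rcases mul_eq_zero.1 h2 with h3 | h3
    · exact WithZero.exp_ne_zero h3
    · exact hb ((Valuation.zero_iff _).1 ((pow_eq_zero_iff (two_ne_zero)).1 h3))

/-- `|N(a, b)| ≤ 1` iff `a` and `b` are integral. -/
theorem integral_of_val_nrm_le {τ ν : k} (hν : Valued.v ν = WithZero.exp (-1 : ℤ))
    (hτ : Valued.v τ < 1) {a b : k} (h : Valued.v (nrm τ ν a b) ≤ 1) :
    Valued.v a ≤ 1 ∧ Valued.v b ≤ 1 := by
  rw [val_nrm hν hτ] at h
  have h1 := (le_max_left _ _).trans h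
  have h2 := (le_max_right _ _).trans h
  constructor
  · by_contra hcon
    have hcon := not_le.1 hcon
    have : (1 : Γ₀) < Valued.v a ^ 2 := one_lt_pow₀ hcon two_ne_zero
    exact absurd h1 (not_le.2 this)
  · rcases eq_or_ne (Valued.v b) 0 with hb | hb
    · rw [hb]; exact zero_le
    · obtain ⟨y, hy⟩ : ∃ y : ℤ, Valued.v b = WithZero.exp y := ⟨_, (WithZero.exp_log hb).symm⟩
      rw [hy, ← WithZero.exp_nsmul, ← WithZero.exp_add, ← WithZero.exp_zero,
        WithZero.exp_le_exp] at h2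
      rw [hy, ← WithZero.exp_zero, WithZero.exp_le_exp]
      simp at h2
      omega

/-- A unit of `𝒪_E`: `|a| = 1`, `|b| ≤ 1` gives `|N(a, b)| = 1`. -/
theorem val_nrm_unit {τ ν : k} (hν : Valued.v ν = WithZero.exp (-1 : ℤ)) (hτ : Valued.v τ < 1)
    {a b : k} (ha : Valued.v a = 1) (hb : Valued.v b ≤ 1) : Valued.v (nrm τ ν a b) = 1 := by
  rw [val_nrm hν hτ, ha, one_pow]
  apply max_eq_left
  calc WithZero.exp (-1 : ℤ) * Valued.v b ^ 2 ≤ 1 * 1 := by
        refine mul_le_mul' ?_ (pow_le_one' hb 2)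
        rw [← WithZero.exp_zero, WithZero.exp_le_exp]
        omega
    _ = 1 := one_mul 1

end Norm

section Decomp

variable {k : Type} [Field k] [Valued k Γ₀]

/-- An element of `GL₂(k)` with integral entries and unit determinant lies in `U(0) = GL₂(𝒪)`. -/
theorem inU_zero_of_integral (g : GL (Fin 2) k)
    (h : ∀ i j, Valued.v ((g : Matrix (Fin 2) (Fin 2) k) i j) ≤ 1)
    (hd : Valued.v (g : Matrix (Fin 2) (Fin 2) k).det = 1) : InU 0 g := by
  have hinv : ∀ i j, Valued.v (((g⁻¹ : GL (Fin 2) k) : Matrix (Fin 2) (Fin 2) k) i j) ≤ 1 := by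
    intro i j
    rw [Matrix.coe_units_inv, Matrix.inv_def, Matrix.smul_apply, smul_eq_mul, map_mul,
      Ring.inverse_eq_inv', map_inv₀, hd, inv_one, one_mul, Matrix.adjugate_fin_two]
    fin_cases i <;> fin_cases j <;> simp [h]
  intro i j
  simp only [Nat.cast_zero, neg_zero, WithZero.exp_zero]
  exact ⟨Valuation.map_sub_le _ (h i j) (val_one_apply_le i j),
    Valuation.map_sub_le _ (hinv i j) (val_one_apply_le i j)⟩

/-- (I3) `p + p' Π = t · (a₁ + b₁ Π)` with `t = νᵐ` or `νᵐ Π` and `a₁ + b₁ Π` a unit. -/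
theorem exists_unit_decomp {τ ν : k} (hν : Valued.v ν = WithZero.exp (-1 : ℤ))
    (hτ : Valued.v τ < 1) {p p' : k} (h : p ≠ 0 ∨ p' ≠ 0) :
    ∃ (m : ℤ) (a₁ b₁ : k), Valued.v a₁ = 1 ∧ Valued.v b₁ ≤ 1 ∧
      (embMat τ ν p p' = embMat τ ν (ν ^ m) 0 * embMat τ ν a₁ b₁ ∨
        embMat τ ν p p' = embMat τ ν 0 (ν ^ m) * embMat τ ν a₁ b₁) := by
  have hν0 : ν ≠ 0 := unif_ne_zero hν
  have hτ' : Valued.v τ ≤ WithZero.exp (-1 : ℤ) := lt_one_iff_le_exp_neg_one.1 hτ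
  rcases le_or_gt (Valued.v p') (Valued.v p) with hle | hlt
  · -- `|p'| ≤ |p|`
    have hp : p ≠ 0 := by
      rintro rfl
      rw [map_zero] at hle
      have : p' = 0 := (Valuation.zero_iff _).1 (le_antisymm hle zero_le)
      rcases h with h | h
      · exact h rfl
      · exact h this
    obtain ⟨m, hm⟩ := exists_zpow_val_eq hν hp
    have hνm : ν ^ m ≠ 0 := zpow_ne_zero m hν0
    have hvνm : Valued.v (ν ^ m) ≠ 0 := (Valuation.ne_zero_iff _).2 hνm
    refine ⟨m, p / ν ^ m, p' / ν ^ m, ?_, ?_, Or.inl ?_⟩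
    · rw [map_div₀, hm, div_self ((Valuation.ne_zero_iff _).2 hp)]
    · rw [map_div₀, hm]
      exact div_le_one_of_le₀ hle zero_le
    · rw [embMat_mul]
      congr 1
      · field_simp
        ring
      · field_simp
        ring
  · -- `|p| < |p'|`
    have hp' : p' ≠ 0 := by
      rintro rfl
      rw [map_zero] at hlt
      exact absurd hlt (not_lt.2 zero_le)
    have hvp' : Valued.v p' ≠ 0 := (Valuation.ne_zero_iff _).2 hp'
    have hlt1 : Valued.v (p * τ / ν) < Valued.v p' := by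
      rw [map_div₀, map_mul, hν]
      refine lt_of_le_of_lt ?_ hlt
      rw [div_le_iff₀ WithZero.exp_pos]
      gcongr
    have hp'' : Valued.v (p * τ / ν + p') = Valued.v p' :=
      Valuation.map_add_eq_of_lt_right _ hlt1
    have hp''0 : p * τ / ν + p' ≠ 0 := by
      intro h0
      rw [h0, map_zero] at hp''
      exact hvp' hp''.symm
    obtain ⟨m, hm⟩ := exists_zpow_val_eq hν hp''0
    have hνm : ν ^ m ≠ 0 := zpow_ne_zero m hν0
    refine ⟨m, (p * τ / ν + p') / ν ^ m, (-p / ν) / ν ^ m, ?_, ?_, Or.inr ?_⟩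
    · rw [map_div₀, hm, div_self ((Valuation.ne_zero_iff _).2 hp''0)]
    · rw [map_div₀, hm, hp'', map_div₀, Valuation.map_neg, hν]
      have h1 := le_exp_neg_one_mul_of_lt hlt
      rw [div_le_iff₀ (lt_of_le_of_ne zero_le hvp'.symm), one_mul,
        div_le_iff₀ WithZero.exp_pos, mul_comm]
      exact h1
    · rw [embMat_mul]
      congr 1
      · field_simp
        ring
      · field_simp
        ring

omit [Valued k Γ₀] in
theorem latMat_eq (τ ν : k) (n : ℕ) (ξ : k) :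
    latMat τ ν n ξ = embMat τ ν 1 ξ * !![1, 0; 0, ν ^ n] := by
  unfold latMat embMat
  rw [Matrix.mul_fin_two]
  congr 1
  ext i j
  fin_cases i <;> fin_cases j <;> simp <;> ring

omit [Valued k Γ₀] in
theorem det_latMat (τ ν : k) (n : ℕ) (ξ : k) :
    (latMat τ ν n ξ).det = ν ^ n * nrm τ ν 1 ξ := by
  rw [latMat, Matrix.det_fin_two_of, nrm]
  ring

theorem det_latMat_ne_zero {τ ν : k} (hν : Valued.v ν = WithZero.exp (-1 : ℤ))
    (hτ : Valued.v τ < 1) (n : ℕ) (ξ : k) : (latMat τ ν n ξ).det ≠ 0 := by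
  rw [det_latMat]
  exact mul_ne_zero (pow_ne_zero n (unif_ne_zero hν))
    (nrm_ne_zero hν hτ (Or.inl one_ne_zero))

theorem coe_latGL {τ ν : k} (hν : Valued.v ν = WithZero.exp (-1 : ℤ))
    (hτ : Valued.v τ < 1) (n : ℕ) (ξ : k) :
    ((latGL τ ν n ξ : GL (Fin 2) k) : Matrix (Fin 2) (Fin 2) k) = latMat τ ν n ξ := by
  unfold latGL
  rw [dif_pos (det_latMat_ne_zero hν hτ n ξ)]
  rfl

/-- (I4) `e(a₁, b₁) · diag(1, νⁿ) = latMat n ξ' · u₂` with `ξ' ∈ B` and `u₂ ∈ GL₂(𝒪)`. -/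
theorem exists_lat_unit {τ ν : k} (hν : Valued.v ν = WithZero.exp (-1 : ℤ))
    (hτ : Valued.v τ < 1) (n : ℕ) (B : Set k) (hB : IsReprMod n B) {a₁ b₁ : k}
    (ha₁ : Valued.v a₁ = 1) (hb₁ : Valued.v b₁ ≤ 1) :
    ∃ ξ' ∈ B, ∃ u₂ : GL (Fin 2) k, InU 0 u₂ ∧
      embMat τ ν a₁ b₁ * !![1, 0; 0, ν ^ n]
        = latMat τ ν n ξ' * (u₂ : Matrix (Fin 2) (Fin 2) k) := by
  have hν0 : ν ≠ 0 := unif_ne_zero hν
  have hνn : ν ^ n ≠ 0 := pow_ne_zero n hν0
  have hτ1 : Valued.v τ ≤ 1 := hτ.le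
  have hν1 : Valued.v ν ≤ 1 := by
    rw [hν, ← WithZero.exp_zero, WithZero.exp_le_exp]
    omega
  have ha₁0 : a₁ ≠ 0 := by
    rintro rfl
    rw [map_zero] at ha₁
    exact zero_ne_one ha₁
  have hξ'' : Valued.v (b₁ / a₁) ≤ 1 := by
    rw [map_div₀, ha₁, div_one]
    exact hb₁
  obtain ⟨ξ', ⟨hξ'B, hξ'⟩, -⟩ := hB.2 (b₁ / a₁) hξ''
  have hξ'1 : Valued.v ξ' ≤ 1 := hB.1 ξ' hξ'B
  have hN' : nrm τ ν 1 ξ' ≠ 0 := nrm_ne_zero hν hτ (Or.inl one_ne_zero)
  have hvN' : Valued.v (nrm τ ν 1 ξ') = 1 := val_nrm_unit hν hτ (map_one _) hξ'1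
  -- `A + B Π = (a₁ + b₁ Π) / (1 + ξ' Π)`
  set A : k := (a₁ + τ * a₁ * ξ' + ν * b₁ * ξ') / nrm τ ν 1 ξ' with hA
  set Bc : k := (b₁ - a₁ * ξ') / nrm τ ν 1 ξ' with hBc
  have hE1 : A - ν * ξ' * Bc = a₁ := by
    rw [hA, hBc]
    field_simp
    unfold nrm
    ring
  have hE2 : Bc + ξ' * A + τ * ξ' * Bc = b₁ := by
    rw [hA, hBc]
    field_simp
    unfold nrm
    ring
  have hvA : Valued.v A ≤ 1 := by
    rw [hA, map_div₀, hvN', div_one]
    refine Valuation.map_add_le _ (Valuation.map_add_le _ ha₁.le ?_) ?_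
    · rw [map_mul, map_mul, ha₁, mul_one]
      exact mul_le_one' hτ1 hξ'1
    · rw [map_mul, map_mul]
      exact mul_le_one' (mul_le_one' hν1 hb₁) hξ'1
  have hvB : Valued.v Bc ≤ WithZero.exp (-(n : ℤ)) := by
    rw [hBc, map_div₀, hvN', div_one]
    have : b₁ - a₁ * ξ' = a₁ * (b₁ / a₁ - ξ') := by
      field_simp
    rw [this, map_mul, ha₁, one_mul]
    exact hξ'
  have hvB1 : Valued.v Bc ≤ 1 := hvB.trans (exp_neg_nat_le_one n)
  have hvBn : Valued.v (Bc / ν ^ n) ≤ 1 := by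
    rw [map_div₀, val_pow_unif hν]
    exact div_le_one_of_le₀ hvB zero_le
  have hdetU : (!![A, -(ν ^ (n + 1) * Bc); Bc / ν ^ n, A + τ * Bc] :
      Matrix (Fin 2) (Fin 2) k).det = nrm τ ν A Bc := by
    rw [Matrix.det_fin_two_of, nrm]
    field_simp
    ring
  have hnAB : nrm τ ν 1 ξ' * nrm τ ν A Bc = nrm τ ν a₁ b₁ := by
    rw [nrm_mul]
    congr 1
    · rw [one_mul, ← hE1]
    · rw [one_mul, ← hE2]
  have hvAB : Valued.v (nrm τ ν A Bc) = 1 := by
    have h1 : Valued.v (nrm τ ν 1 ξ') * Valued.v (nrm τ ν A Bc) = Valued.v (nrm τ ν a₁ b₁) := by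
      rw [← map_mul, hnAB]
    rw [hvN', one_mul, val_nrm_unit hν hτ ha₁ hb₁] at h1
    exact h1
  have hdet0 : (!![A, -(ν ^ (n + 1) * Bc); Bc / ν ^ n, A + τ * Bc] :
      Matrix (Fin 2) (Fin 2) k).det ≠ 0 := by
    rw [hdetU]
    intro h0
    rw [h0, map_zero] at hvAB
    exact zero_ne_one hvAB
  refine ⟨ξ', hξ'B, Matrix.GeneralLinearGroup.mkOfDetNeZero _ hdet0, ?_, ?_⟩
  · apply inU_zero_of_integral
    · intro i j
      show Valued.v ((!![A, -(ν ^ (n + 1) * Bc); Bc / ν ^ n, A + τ * Bc] :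
        Matrix (Fin 2) (Fin 2) k) i j) ≤ 1
      fin_cases i <;> fin_cases j
      · simpa using hvA
      · simp only [Fin.zero_eta, Fin.isValue, Fin.mk_one, Matrix.of_apply, Matrix.cons_val',
          Matrix.cons_val_one, Matrix.cons_val_zero, Matrix.cons_val_fin_one]
        rw [Valuation.map_neg, map_mul, map_pow]
        exact mul_le_one' (pow_le_one' hν1 _) hvB1
      · simpa using hvBn
      · simp only [Fin.mk_one, Fin.isValue, Matrix.of_apply, Matrix.cons_val', Matrix.cons_val_one,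
          Matrix.cons_val_fin_one]
        exact Valuation.map_add_le _ hvA (by rw [map_mul]; exact mul_le_one' hτ1 hvB1)
    · show Valued.v (!![A, -(ν ^ (n + 1) * Bc); Bc / ν ^ n, A + τ * Bc] :
        Matrix (Fin 2) (Fin 2) k).det = 1
      rw [hdetU, hvAB]
  · show embMat τ ν a₁ b₁ * !![1, 0; 0, ν ^ n]
      = latMat τ ν n ξ' * !![A, -(ν ^ (n + 1) * Bc); Bc / ν ^ n, A + τ * Bc]
    unfold embMat latMat
    rw [Matrix.mul_fin_two, Matrix.mul_fin_two, ← hE1, ← hE2]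
    congr 1
    ext i j
    fin_cases i <;> fin_cases j <;> simp <;> field_simp <;> ring

end Decomp

section Main

variable {k : Type} [Field k] [Valued k Γ₀]

omit [Valued k Γ₀] in
theorem det_ne_zero_GL (x : GL (Fin 2) k) : (x : Matrix (Fin 2) (Fin 2) k).det ≠ 0 := by
  intro h0
  have h1 : (x : Matrix (Fin 2) (Fin 2) k).det
      * ((x⁻¹ : GL (Fin 2) k) : Matrix (Fin 2) (Fin 2) k).det = 1 := by
    rw [← Matrix.det_mul, ← Units.val_mul, mul_inv_cancel, Units.val_one, Matrix.det_one]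
  rw [h0, zero_mul] at h1
  exact zero_ne_one h1

/-- The decomposition when the first column has the larger norm. -/
theorem latDecomp_aux {τ ν : k} (hν : Valued.v ν = WithZero.exp (-1 : ℤ))
    (hτ : Valued.v τ < 1) (B : ℕ → Set k) (hB : ∀ n, IsReprMod n (B n)) (x : GL (Fin 2) k)
    (hN : Valued.v (nrm τ ν ((x : Matrix (Fin 2) (Fin 2) k) 0 1)
        ((x : Matrix (Fin 2) (Fin 2) k) 1 1))
      ≤ Valued.v (nrm τ ν ((x : Matrix (Fin 2) (Fin 2) k) 0 0)
        ((x : Matrix (Fin 2) (Fin 2) k) 1 0))) :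
    ∃ (t : GL (Fin 2) k) (m : ℤ) (n : ℕ) (ξ : k) (u : GL (Fin 2) k),
      ((t : Matrix (Fin 2) (Fin 2) k) = embMat τ ν (ν ^ m) 0 ∨
        (t : Matrix (Fin 2) (Fin 2) k) = embMat τ ν 0 (ν ^ m)) ∧
      ξ ∈ B n ∧ InU 0 u ∧ x = t * latGL τ ν n ξ * u := by
  have hν0 : ν ≠ 0 := unif_ne_zero hν
  obtain ⟨p, hp⟩ : ∃ p : k, p = (x : Matrix (Fin 2) (Fin 2) k) 0 0 := ⟨_, rfl⟩
  obtain ⟨p', hp'⟩ : ∃ p' : k, p' = (x : Matrix (Fin 2) (Fin 2) k) 1 0 := ⟨_, rfl⟩
  obtain ⟨r, hr⟩ : ∃ r : k, r = (x : Matrix (Fin 2) (Fin 2) k) 0 1 := ⟨_, rfl⟩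
  obtain ⟨r', hr'⟩ : ∃ r' : k, r' = (x : Matrix (Fin 2) (Fin 2) k) 1 1 := ⟨_, rfl⟩
  rw [← hp, ← hp', ← hr, ← hr'] at hN
  have hxeta : (x : Matrix (Fin 2) (Fin 2) k) = !![p, r; p', r'] := by
    rw [hp, hp', hr, hr']
    exact Matrix.eta_fin_two _
  have hdetx : (x : Matrix (Fin 2) (Fin 2) k).det = p * r' - r * p' := by
    rw [hxeta, Matrix.det_fin_two_of]
  have hdet0 : p * r' - r * p' ≠ 0 := hdetx ▸ det_ne_zero_GL x
  have hc1 : p ≠ 0 ∨ p' ≠ 0 := by
    by_contra hcon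
    rw [not_or, not_not, not_not] at hcon
    apply hdet0
    rw [hcon.1, hcon.2]
    ring
  have hN1 : nrm τ ν p p' ≠ 0 := nrm_ne_zero hν hτ hc1
  have hvN1 : Valued.v (nrm τ ν p p') ≠ 0 := (Valuation.ne_zero_iff _).2 hN1
  -- (I1): the second column divided by the first
  obtain ⟨a, ha⟩ : ∃ a : k, a = (r * p + τ * r * p' + ν * r' * p') / nrm τ ν p p' := ⟨_, rfl⟩
  obtain ⟨b, hb⟩ : ∃ b : k, b = (p * r' - r * p') / nrm τ ν p p' := ⟨_, rfl⟩
  have hb0 : b ≠ 0 := hb ▸ div_ne_zero hdet0 hN1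
  have hI1a : p * a - ν * p' * b = r := by
    rw [ha, hb]
    field_simp
    unfold nrm
    ring
  have hI1b : p * b + p' * a + τ * p' * b = r' := by
    rw [ha, hb]
    field_simp
    unfold nrm
    ring
  have hnab : nrm τ ν p p' * nrm τ ν a b = nrm τ ν r r' := by
    rw [nrm_mul, hI1a, hI1b]
  have hvab : Valued.v (nrm τ ν a b) ≤ 1 := by
    have h1 : Valued.v (nrm τ ν p p') * Valued.v (nrm τ ν a b) = Valued.v (nrm τ ν r r') := by
      rw [← map_mul, hnab]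
    by_contra hcon
    have hcon := not_le.1 hcon
    have h2 : Valued.v (nrm τ ν p p') < Valued.v (nrm τ ν p p') * Valued.v (nrm τ ν a b) :=
      lt_mul_of_one_lt_right (lt_of_le_of_ne zero_le hvN1.symm) hcon
    rw [h1] at h2
    exact absurd hN (not_le.2 h2)
  obtain ⟨ha1, hb1⟩ := integral_of_val_nrm_le hν hτ hvab
  -- (I2): `b = νⁿ · unit`
  obtain ⟨n, hn⟩ := exists_pow_val_eq hν hb0 hb1
  have hνn : ν ^ n ≠ 0 := pow_ne_zero n hν0
  have hvbn : Valued.v (b / ν ^ n) = 1 := by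
    rw [map_div₀, hn, div_self ((Valuation.ne_zero_iff _).2 hb0)]
  have hdetU1 : (!![1, a; 0, b / ν ^ n] : Matrix (Fin 2) (Fin 2) k).det = b / ν ^ n := by
    rw [Matrix.det_fin_two_of]
    ring
  have hdetU1' : (!![1, a; 0, b / ν ^ n] : Matrix (Fin 2) (Fin 2) k).det ≠ 0 := by
    rw [hdetU1]
    exact div_ne_zero hb0 hνn
  have hU1 : InU 0 (Matrix.GeneralLinearGroup.mkOfDetNeZero
      (!![1, a; 0, b / ν ^ n] : Matrix (Fin 2) (Fin 2) k) hdetU1') := by
    apply inU_zero_of_integral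
    · intro i j
      show Valued.v ((!![1, a; 0, b / ν ^ n] : Matrix (Fin 2) (Fin 2) k) i j) ≤ 1
      fin_cases i <;> fin_cases j
      · simp
      · simpa using ha1
      · simp
      · simpa using hvbn.le
    · show Valued.v (!![1, a; 0, b / ν ^ n] : Matrix (Fin 2) (Fin 2) k).det = 1
      rw [hdetU1, hvbn]
  -- (I3)
  obtain ⟨m, a₁, b₁, ha₁, hb₁, hI3⟩ := exists_unit_decomp hν hτ hc1
  -- (I4)
  obtain ⟨ξ', hξ'B, u₂, hu₂, hI4⟩ := exists_lat_unit hν hτ n (B n) (hB n) ha₁ hb₁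
  -- the element `t`
  obtain ⟨T, hT, hI3'⟩ : ∃ T : Matrix (Fin 2) (Fin 2) k,
      (T = embMat τ ν (ν ^ m) 0 ∨ T = embMat τ ν 0 (ν ^ m)) ∧
        embMat τ ν p p' = T * embMat τ ν a₁ b₁ := by
    rcases hI3 with h | h
    · exact ⟨_, Or.inl rfl, h⟩
    · exact ⟨_, Or.inr rfl, h⟩
  have hTdet : T.det ≠ 0 := by
    have hνm : ν ^ m ≠ 0 := zpow_ne_zero m hν0
    rcases hT with h | h
    · rw [h, det_embMat]
      exact nrm_ne_zero hν hτ (Or.inl hνm)
    · rw [h, det_embMat]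
      exact nrm_ne_zero hν hτ (Or.inr hνm)
  refine ⟨Matrix.GeneralLinearGroup.mkOfDetNeZero T hTdet, m, n, ξ',
    u₂ * Matrix.GeneralLinearGroup.mkOfDetNeZero _ hdetU1', hT, hξ'B, ?_, ?_⟩
  · exact (subU 0).mul_mem hu₂ hU1
  · apply Units.ext
    rw [Units.val_mul, Units.val_mul, Units.val_mul, coe_latGL hν hτ]
    show (x : Matrix (Fin 2) (Fin 2) k)
      = T * latMat τ ν n ξ' * ((u₂ : Matrix (Fin 2) (Fin 2) k) * !![1, a; 0, b / ν ^ n])
    have hI1 : (x : Matrix (Fin 2) (Fin 2) k) = embMat τ ν p p' * !![1, a; 0, b] := by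
      rw [hxeta]
      unfold embMat
      rw [Matrix.mul_fin_two, ← hI1a, ← hI1b]
      congr 1
      ext i j
      fin_cases i <;> fin_cases j <;> simp <;> ring
    have hI2 : (!![1, a; 0, b] : Matrix (Fin 2) (Fin 2) k)
        = !![1, 0; 0, ν ^ n] * !![1, a; 0, b / ν ^ n] := by
      rw [Matrix.mul_fin_two]
      congr 1
      ext i j
      fin_cases i <;> fin_cases j <;> simp
      field_simp
    rw [hI1, hI2, hI3', Matrix.mul_assoc T, ← Matrix.mul_assoc (embMat τ ν a₁ b₁), hI4,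
      Matrix.mul_assoc (latMat τ ν n ξ'), ← Matrix.mul_assoc T]

/-- The Weyl element `!![0, 1; 1, 0]`. -/
def weyl (k : Type) [Field k] : GL (Fin 2) k :=
  Matrix.GeneralLinearGroup.mkOfDetNeZero (!![0, 1; 1, 0] : Matrix (Fin 2) (Fin 2) k) (by
    rw [Matrix.det_fin_two_of]
    simp)

theorem inU_weyl : InU 0 (weyl k) := by
  apply inU_zero_of_integral
  · intro i j
    show Valued.v ((!![0, 1; 1, 0] : Matrix (Fin 2) (Fin 2) k) i j) ≤ 1
    fin_cases i <;> fin_cases j <;> simp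
  · show Valued.v (!![0, 1; 1, 0] : Matrix (Fin 2) (Fin 2) k).det = 1
    rw [Matrix.det_fin_two_of]
    simp

omit [Valued k Γ₀] in
theorem mul_weyl_apply (x : GL (Fin 2) k) :
    ((x * weyl k : GL (Fin 2) k) : Matrix (Fin 2) (Fin 2) k)
      = !![(x : Matrix (Fin 2) (Fin 2) k) 0 1, (x : Matrix (Fin 2) (Fin 2) k) 0 0;
          (x : Matrix (Fin 2) (Fin 2) k) 1 1, (x : Matrix (Fin 2) (Fin 2) k) 1 0] := by
  rw [Units.val_mul]
  show (x : Matrix (Fin 2) (Fin 2) k) * !![0, 1; 1, 0] = _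
  conv_lhs => rw [Matrix.eta_fin_two (x : Matrix (Fin 2) (Fin 2) k)]
  rw [Matrix.mul_fin_two]
  congr 1
  ext i j
  fin_cases i <;> fin_cases j <;> simp

/-- **T6.14b.L1 `LatDecompC129`.** -/
theorem latDecompC420 : LatDecompC129 := by
  intro k _ _ τ ν hν hτ B hB x
  rcases le_total
    (Valued.v (nrm τ ν ((x : Matrix (Fin 2) (Fin 2) k) 0 1)
      ((x : Matrix (Fin 2) (Fin 2) k) 1 1)))
    (Valued.v (nrm τ ν ((x : Matrix (Fin 2) (Fin 2) k) 0 0)
      ((x : Matrix (Fin 2) (Fin 2) k) 1 0))) with h | h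
  · exact latDecomp_aux hν hτ B hB x h
  · have h' : Valued.v (nrm τ ν (((x * weyl k : GL (Fin 2) k) : Matrix (Fin 2) (Fin 2) k) 0 1)
          (((x * weyl k : GL (Fin 2) k) : Matrix (Fin 2) (Fin 2) k) 1 1))
        ≤ Valued.v (nrm τ ν (((x * weyl k : GL (Fin 2) k) : Matrix (Fin 2) (Fin 2) k) 0 0)
          (((x * weyl k : GL (Fin 2) k) : Matrix (Fin 2) (Fin 2) k) 1 0)) := by
      rw [mul_weyl_apply]
      simpa using h
    obtain ⟨t, m, n, ξ, u, ht, hξ, hu, hx⟩ := latDecomp_aux hν hτ B hB (x * weyl k) h'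
    refine ⟨t, m, n, ξ, u * (weyl k)⁻¹, ht, hξ, ?_, ?_⟩
    · exact (subU 0).mul_mem hu ((subU 0).inv_mem inU_weyl)
    · rw [← mul_assoc, ← hx]
      group

end Main

end Fermat.Agent.LT.T6.H420
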