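import Mathlib
import Fermat.Agent.LT.T6.Spec

/-!
# Row LT, tower T6, leaf T6.08 (helper420): regular `2 × 2` matrices with the same
characteristic polynomial are conjugate; conjugation formula for the twisted norm

Mathlib + T6 Spec only.
-/

set_option autoImplicit false

noncomputable section

namespace Fermat.Agent.LT.T6.H420

open Matrix

section Conj

variable {K : Type} [Field K]

/-- The companion matrix of `X² - t X + d`. -/
def comp2 (t d : K) : Matrix (Fin 2) (Fin 2) K := !![0, -d; 1, t]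

/-- A `2 × 2` matrix with nonzero discriminant is conjugate to the companion matrix of its
characteristic polynomial. -/
theorem exists_conj_comp2 (A : Matrix (Fin 2) (Fin 2) K)
    (hA : A.trace ^ 2 - 4 * A.det ≠ 0) :
    ∃ P : GL (Fin 2) K, A * (P : Matrix (Fin 2) (Fin 2) K)
      = (P : Matrix (Fin 2) (Fin 2) K) * comp2 A.trace A.det := by
  have hAeta : A = !![A 0 0, A 0 1; A 1 0, A 1 1] := Matrix.eta_fin_two A
  have htr : A.trace = A 0 0 + A 1 1 := Matrix.trace_fin_two A
  have hdet : A.det = A 0 0 * A 1 1 - A 0 1 * A 1 0 := Matrix.det_fin_two A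
  by_cases hc : A 1 0 = 0
  · by_cases hb : A 0 1 = 0
    · have had : A 1 1 - A 0 0 ≠ 0 := by
        intro h
        apply hA
        have h' : A 1 1 = A 0 0 := sub_eq_zero.1 h
        rw [htr, hdet, hb, hc, h']
        ring
      have hP : (!![1, A 0 0; 1, A 1 1] : Matrix (Fin 2) (Fin 2) K).det ≠ 0 := by
        rw [Matrix.det_fin_two_of]
        simpa using had
      refine ⟨Matrix.GeneralLinearGroup.mkOfDetNeZero _ hP, ?_⟩
      show A * !![1, A 0 0; 1, A 1 1] = !![1, A 0 0; 1, A 1 1] * comp2 A.trace A.det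
      rw [htr, hdet, comp2]
      conv_lhs => rw [hAeta]
      rw [Matrix.mul_fin_two, Matrix.mul_fin_two, hb, hc]
      congr 1
      ext i j
      fin_cases i <;> fin_cases j <;> simp <;> ring
    · have hP : (!![0, A 0 1; 1, A 1 1] : Matrix (Fin 2) (Fin 2) K).det ≠ 0 := by
        rw [Matrix.det_fin_two_of]
        simpa using hb
      refine ⟨Matrix.GeneralLinearGroup.mkOfDetNeZero _ hP, ?_⟩
      show A * !![0, A 0 1; 1, A 1 1] = !![0, A 0 1; 1, A 1 1] * comp2 A.trace A.det
      rw [htr, hdet, comp2]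
      conv_lhs => rw [hAeta]
      rw [Matrix.mul_fin_two, Matrix.mul_fin_two]
      ext i j
      fin_cases i <;> fin_cases j <;> simp <;> ring
  · have hP : (!![1, A 0 0; 0, A 1 0] : Matrix (Fin 2) (Fin 2) K).det ≠ 0 := by
      rw [Matrix.det_fin_two_of]
      simpa using hc
    refine ⟨Matrix.GeneralLinearGroup.mkOfDetNeZero _ hP, ?_⟩
    show A * !![1, A 0 0; 0, A 1 0] = !![1, A 0 0; 0, A 1 0] * comp2 A.trace A.det
    rw [htr, hdet, comp2]
    conv_lhs => rw [hAeta]
    rw [Matrix.mul_fin_two, Matrix.mul_fin_two]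
    ext i j
    fin_cases i <;> fin_cases j <;> simp <;> ring

/-- Two elements of `GL₂(K)` with the same trace and determinant, of nonzero discriminant, are
conjugate in `GL₂(K)`. -/
theorem isConj_of_trace_det_eq (A B : GL (Fin 2) K)
    (htr : (A : Matrix (Fin 2) (Fin 2) K).trace = (B : Matrix (Fin 2) (Fin 2) K).trace)
    (hdet : (A : Matrix (Fin 2) (Fin 2) K).det = (B : Matrix (Fin 2) (Fin 2) K).det)
    (hA : IsReg A) : IsConj A B := by
  have hA0 : (A : Matrix (Fin 2) (Fin 2) K).trace ^ 2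
      - 4 * (A : Matrix (Fin 2) (Fin 2) K).det ≠ 0 := hA.ne_zero
  have hB0 : (B : Matrix (Fin 2) (Fin 2) K).trace ^ 2
      - 4 * (B : Matrix (Fin 2) (Fin 2) K).det ≠ 0 := by
    rw [← htr, ← hdet]
    exact hA0
  obtain ⟨P, hP⟩ := exists_conj_comp2 _ hA0
  obtain ⟨Q, hQ⟩ := exists_conj_comp2 _ hB0
  rw [← htr, ← hdet] at hQ
  rw [isConj_iff]
  refine ⟨Q * P⁻¹, ?_⟩
  -- `A P = P C`, `B Q = Q C`
  have h1 : (P⁻¹ : GL (Fin 2) K) * A * P = Q⁻¹ * B * Q := by
    apply Units.ext
    have hPi : ((P⁻¹ : GL (Fin 2) K) : Matrix (Fin 2) (Fin 2) K) * (P : Matrix (Fin 2) (Fin 2) K)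
        = 1 := by
      rw [← Units.val_mul, inv_mul_cancel, Units.val_one]
    have hQi : ((Q⁻¹ : GL (Fin 2) K) : Matrix (Fin 2) (Fin 2) K) * (Q : Matrix (Fin 2) (Fin 2) K)
        = 1 := by
      rw [← Units.val_mul, inv_mul_cancel, Units.val_one]
    rw [Units.val_mul, Units.val_mul, Units.val_mul, Units.val_mul, mul_assoc, hP, mul_assoc,
      hQ, ← mul_assoc, ← mul_assoc, hPi, hQi]
  calc Q * P⁻¹ * A * (Q * P⁻¹)⁻¹ = Q * (P⁻¹ * A * P) * Q⁻¹ := by group
    _ = Q * (Q⁻¹ * B * Q) * Q⁻¹ := by rw [h1]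
    _ = B := by group

end Conj

section TwNorm

variable {Γ : Type} [Group Γ]

/-- The twisted norm of a twisted conjugate. -/
theorem twN_twConj (s : Γ →* Γ) (n : ℕ) (δ x : Γ) :
    twN s n (x⁻¹ * δ * s x) = x⁻¹ * twN s n δ * (s^[n]) x := by
  induction n with
  | zero => simp [twN]
  | succ n ih =>
    rw [twN, ih, twN, Function.iterate_succ_apply', map_mul, map_mul, map_inv]
    group

end TwNorm

section GlAutIter

variable {R : Type} [CommRing R]

theorem glAut_iterate_apply (s : R ≃+* R) (n : ℕ) (x : GL (Fin 2) R) (i j : Fin 2) :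
    (((glAut s)^[n] x : GL (Fin 2) R) : Matrix (Fin 2) (Fin 2) R) i j
      = (s ^ n) ((x : Matrix (Fin 2) (Fin 2) R) i j) := by
  induction n with
  | zero => simp
  | succ n ih =>
    rw [Function.iterate_succ_apply', pow_succ', RingAut.mul_apply, ← ih]
    rfl

theorem glAut_iterate_eq_self (s : R ≃+* R) (l : ℕ) (hl : ∀ y : R, (s ^ l) y = y)
    (x : GL (Fin 2) R) : (glAut s)^[l] x = x := by
  apply Units.ext
  ext i j
  rw [glAut_iterate_apply, hl]

/-- The twisted norm of a twisted conjugate is a conjugate of the twisted norm. -/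
theorem twNorm_twConj (s : R ≃+* R) (l : ℕ) (hl : ∀ y : R, (s ^ l) y = y)
    (δ x : GL (Fin 2) R) :
    twNorm s l (x⁻¹ * δ * glAut s x) = x⁻¹ * twNorm s l δ * x := by
  unfold twNorm
  rw [twN_twConj, glAut_iterate_eq_self s l hl]

theorem trace_conj_GL (g x : GL (Fin 2) R) :
    ((x⁻¹ * g * x : GL (Fin 2) R) : Matrix (Fin 2) (Fin 2) R).trace
      = (g : Matrix (Fin 2) (Fin 2) R).trace := by
  rw [Units.val_mul, Units.val_mul, Matrix.trace_mul_comm, ← mul_assoc, ← Units.val_mul,
    mul_inv_cancel, Units.val_one, one_mul]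

theorem det_conj_GL (g x : GL (Fin 2) R) :
    ((x⁻¹ * g * x : GL (Fin 2) R) : Matrix (Fin 2) (Fin 2) R).det
      = (g : Matrix (Fin 2) (Fin 2) R).det := by
  rw [Units.val_mul, Units.val_mul, Matrix.det_mul, Matrix.det_mul, mul_comm, ← mul_assoc,
    ← Matrix.det_mul, ← Units.val_mul, mul_inv_cancel, Units.val_one, Matrix.det_one, one_mul]

end GlAutIter

end Fermat.Agent.LT.T6.H420
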