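import Mathlib
import Fermat.Agent.LT.T6.Spec
import Fermat.Agent.LT.T6.H783.BadSpec
import Fermat.Agent.LT.T6.H420.Conj2

/-!
# Row LT, tower T6, sub-leaf T6.18b (helper420): `CptC783` (bounded support)

A non-zero twisted orbit sum at `δ`, `N δ ∼ i(γ)`, forces `(tr γ, det γ)` into a bounded region.

Proof.  `c ≠ 0` gives `y = x⁻¹ δ s(x)` with `φ y ≠ 0`, so `y = x₀ u`, `x₀ ∈ F` (finite), `u ∈ U'(n)`.
`N y = x⁻¹ (N δ) x` (`s^l = 1`) is conjugate to `i(γ)`, so `i(tr γ) = tr N y`, `i(det γ) = det N y`.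
The entries of `N y = y s(y) ⋯ s^{l-1}(y)` are bounded by `M^l`, `M` a bound for the entries of
`x₀`, and `|det N y| = |det x₀|^l`.  Finally `|i t| = |t|^e`, `e ≥ 1`.

Mathlib + T6 Spec + `H783/BadSpec.lean` (byte-identical) only.
-/

set_option autoImplicit false

noncomputable section

namespace Fermat.Agent.LT.T6.H420

open Matrix Fermat.Agent.LT.T6.H783

section Bounds

variable {k : Type} [Field k] [Valued k Γ₀]

/-- All entries of `A` have valuation `≤ M`. -/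
def EntryLe (A : Matrix (Fin 2) (Fin 2) k) (M : Γ₀) : Prop := ∀ i j, Valued.v (A i j) ≤ M

theorem EntryLe.mul {A B : Matrix (Fin 2) (Fin 2) k} {M M' : Γ₀} (hA : EntryLe A M)
    (hB : EntryLe B M') : EntryLe (A * B) (M * M') := fun i j => by
  rw [Matrix.mul_apply]
  refine Valued.v.map_sum_le fun l _ => ?_
  rw [map_mul]
  exact mul_le_mul' (hA i l) (hB l j)

theorem EntryLe.one : EntryLe (1 : Matrix (Fin 2) (Fin 2) k) 1 := fun i j => by
  by_cases hij : i = j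
  · subst hij
    simp
  · simp [Matrix.one_apply_ne hij]

theorem EntryLe.trace {A : Matrix (Fin 2) (Fin 2) k} {M : Γ₀} (hA : EntryLe A M) :
    Valued.v A.trace ≤ M := by
  rw [Matrix.trace_fin_two]
  exact (Valued.v.map_add _ _).trans (max_le (hA 0 0) (hA 1 1))

theorem EntryLe.map_glAut {s : k ≃+* k} (hs : ∀ y : k, Valued.v (s y) = Valued.v y)
    {g : GL (Fin 2) k} {M : Γ₀} (hg : EntryLe (g : Matrix (Fin 2) (Fin 2) k) M) :
    EntryLe ((glAut s g : GL (Fin 2) k) : Matrix (Fin 2) (Fin 2) k) M := fun i j => by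
  have : ((glAut s g : GL (Fin 2) k) : Matrix (Fin 2) (Fin 2) k) i j
      = s ((g : Matrix (Fin 2) (Fin 2) k) i j) := rfl
  rw [this, hs]
  exact hg i j

omit [Valued k Γ₀] in
theorem det_glAut (s : k ≃+* k) (g : GL (Fin 2) k) :
    ((glAut s g : GL (Fin 2) k) : Matrix (Fin 2) (Fin 2) k).det
      = s (g : Matrix (Fin 2) (Fin 2) k).det := by
  have : ((glAut s g : GL (Fin 2) k) : Matrix (Fin 2) (Fin 2) k)
      = (s : k →+* k).mapMatrix (g : Matrix (Fin 2) (Fin 2) k) := rfl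
  rw [this, ← RingHom.map_det]
  rfl

/-- The entries of the twisted norm `N_m y` are bounded by `M ^ m`. -/
theorem entryLe_twNorm {s : k ≃+* k} (hs : ∀ y : k, Valued.v (s y) = Valued.v y)
    {y : GL (Fin 2) k} {M : Γ₀} (hy : EntryLe (y : Matrix (Fin 2) (Fin 2) k) M) (m : ℕ) :
    EntryLe ((twNorm s m y : GL (Fin 2) k) : Matrix (Fin 2) (Fin 2) k) (M ^ m) := by
  induction m with
  | zero =>
    have : twNorm s 0 y = 1 := rfl
    rw [this, pow_zero, Units.val_one]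
    exact EntryLe.one
  | succ m ih =>
    have : twNorm s (m + 1) y = y * glAut s (twNorm s m y) := rfl
    rw [this, Units.val_mul, pow_succ']
    exact hy.mul (EntryLe.map_glAut hs ih)

/-- `|det N_m y| = |det y| ^ m`. -/
theorem val_det_twNorm {s : k ≃+* k} (hs : ∀ y : k, Valued.v (s y) = Valued.v y)
    (y : GL (Fin 2) k) (m : ℕ) :
    Valued.v ((twNorm s m y : GL (Fin 2) k) : Matrix (Fin 2) (Fin 2) k).det
      = Valued.v (y : Matrix (Fin 2) (Fin 2) k).det ^ m := by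
  induction m with
  | zero =>
    have : twNorm s 0 y = 1 := rfl
    rw [this, pow_zero, Units.val_one, Matrix.det_one, map_one]
  | succ m ih =>
    have : twNorm s (m + 1) y = y * glAut s (twNorm s m y) := rfl
    rw [this, Units.val_mul, Matrix.det_mul, map_mul, det_glAut, hs, ih, pow_succ']

theorem entryLe_of_inU {n : ℕ} {u : GL (Fin 2) k} (hu : InU n u) :
    EntryLe (u : Matrix (Fin 2) (Fin 2) k) 1 := fun i j => by
  have h1 := (hu i j).1
  have h2 : (WithZero.exp (-(n : ℤ)) : Γ₀) ≤ 1 := by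
    rw [← WithZero.exp_zero, WithZero.exp_le_exp]
    omega
  have h3 : (u : Matrix (Fin 2) (Fin 2) k) i j
      = ((u : Matrix (Fin 2) (Fin 2) k) i j - (1 : Matrix (Fin 2) (Fin 2) k) i j)
        + (1 : Matrix (Fin 2) (Fin 2) k) i j := by ring
  rw [h3]
  exact (Valued.v.map_add _ _).trans (max_le (h1.trans h2) (EntryLe.one i j))

theorem entryLe_inv_of_inU {n : ℕ} {u : GL (Fin 2) k} (hu : InU n u) :
    EntryLe ((u⁻¹ : GL (Fin 2) k) : Matrix (Fin 2) (Fin 2) k) 1 := fun i j => by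
  have h1 := (hu i j).2
  have h2 : (WithZero.exp (-(n : ℤ)) : Γ₀) ≤ 1 := by
    rw [← WithZero.exp_zero, WithZero.exp_le_exp]
    omega
  have h3 : ((u⁻¹ : GL (Fin 2) k) : Matrix (Fin 2) (Fin 2) k) i j
      = (((u⁻¹ : GL (Fin 2) k) : Matrix (Fin 2) (Fin 2) k) i j
          - (1 : Matrix (Fin 2) (Fin 2) k) i j)
        + (1 : Matrix (Fin 2) (Fin 2) k) i j := by ring
  rw [h3]
  exact (Valued.v.map_add _ _).trans (max_le (h1.trans h2) (EntryLe.one i j))

theorem EntryLe.det {A : Matrix (Fin 2) (Fin 2) k} (hA : EntryLe A 1) : Valued.v A.det ≤ 1 := by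
  rw [Matrix.det_fin_two]
  refine (Valued.v.map_sub _ _).trans (max_le ?_ ?_)
  · rw [map_mul]
    exact mul_le_one' (hA 0 0) (hA 1 1)
  · rw [map_mul]
    exact mul_le_one' (hA 0 1) (hA 1 0)

/-- The determinant of an element of `U(n)` is a unit. -/
theorem val_det_of_inU {n : ℕ} {u : GL (Fin 2) k} (hu : InU n u) :
    Valued.v (u : Matrix (Fin 2) (Fin 2) k).det = 1 := by
  have h1 := (entryLe_of_inU hu).det
  have h2 := (entryLe_inv_of_inU hu).det
  have h3 : (u : Matrix (Fin 2) (Fin 2) k).det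
      * ((u⁻¹ : GL (Fin 2) k) : Matrix (Fin 2) (Fin 2) k).det = 1 := by
    rw [← Matrix.det_mul, ← Units.val_mul, mul_inv_cancel, Units.val_one, Matrix.det_one]
  have h4 : Valued.v (u : Matrix (Fin 2) (Fin 2) k).det
      * Valued.v ((u⁻¹ : GL (Fin 2) k) : Matrix (Fin 2) (Fin 2) k).det = 1 := by
    rw [← map_mul, h3, map_one]
  refine le_antisymm h1 ?_
  calc (1 : Γ₀) = Valued.v (u : Matrix (Fin 2) (Fin 2) k).det
        * Valued.v ((u⁻¹ : GL (Fin 2) k) : Matrix (Fin 2) (Fin 2) k).det := h4.symm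
    _ ≤ Valued.v (u : Matrix (Fin 2) (Fin 2) k).det * 1 := by gcongr
    _ = Valued.v (u : Matrix (Fin 2) (Fin 2) k).det := mul_one _

theorem entryLe_entryMax (g : GL (Fin 2) k) :
    EntryLe (g : Matrix (Fin 2) (Fin 2) k) (entryMax g) := fun i j =>
  Finset.le_sup' (fun p : Fin 2 × Fin 2 => Valued.v ((g : Matrix (Fin 2) (Fin 2) k) p.1 p.2))
    (Finset.mem_univ (i, j))

/-- Every element of `ℤᵐ⁰` is `≤ exp |log x|`. -/
theorem le_exp_natAbs_log (x : Γ₀) : x ≤ WithZero.exp ((WithZero.log x).natAbs : ℤ) := by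
  rcases eq_or_ne x 0 with rfl | hx
  · exact zero_le
  · obtain ⟨b, rfl⟩ : ∃ b : ℤ, x = WithZero.exp b := ⟨_, (WithZero.exp_log hx).symm⟩
    rw [WithZero.log_exp, WithZero.exp_le_exp]
    omega

/-- Every non-zero element of `ℤᵐ⁰` is `≥ exp (-|log x|)`. -/
theorem exp_neg_natAbs_log_le {x : Γ₀} (hx : x ≠ 0) :
    WithZero.exp (-((WithZero.log x).natAbs : ℤ)) ≤ x := by
  obtain ⟨b, rfl⟩ : ∃ b : ℤ, x = WithZero.exp b := ⟨_, (WithZero.exp_log hx).symm⟩
  rw [WithZero.log_exp, WithZero.exp_le_exp]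
  omega

/-- `x ^ e ≤ exp (l b)`, `e ≥ 1`, `b ≥ 0` ⟹ `x ≤ exp (l b)`. -/
theorem le_exp_of_pow_le {x : Γ₀} {e : ℕ} (he : 0 < e) {C : ℤ} (hC : 0 ≤ C)
    (h : x ^ e ≤ WithZero.exp C) : x ≤ WithZero.exp C := by
  rcases eq_or_ne x 0 with rfl | hx
  · exact zero_le
  · obtain ⟨b, rfl⟩ : ∃ b : ℤ, x = WithZero.exp b := ⟨_, (WithZero.exp_log hx).symm⟩
    rw [← WithZero.exp_nsmul, WithZero.exp_le_exp] at h
    rw [WithZero.exp_le_exp]
    rw [nsmul_eq_mul] at h
    by_contra hcon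
    have hcon := not_le.1 hcon
    have hb : 0 < b := lt_of_le_of_lt hC hcon
    have he' : (1 : ℤ) ≤ (e : ℤ) := by exact_mod_cast he
    nlinarith

/-- `exp (-C) ≤ x ^ e`, `e ≥ 1`, `C ≥ 0` ⟹ `exp (-C) ≤ x`. -/
theorem exp_neg_le_of_le_pow {x : Γ₀} {e : ℕ} (he : 0 < e) {C : ℤ} (hC : 0 ≤ C)
    (h : WithZero.exp (-C) ≤ x ^ e) : WithZero.exp (-C) ≤ x := by
  have hx : x ≠ 0 := by
    rintro rfl
    rw [zero_pow he.ne'] at h
    exact WithZero.exp_ne_zero (le_antisymm h zero_le)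
  obtain ⟨b, rfl⟩ : ∃ b : ℤ, x = WithZero.exp b := ⟨_, (WithZero.exp_log hx).symm⟩
  rw [← WithZero.exp_nsmul, WithZero.exp_le_exp] at h
  rw [WithZero.exp_le_exp]
  rw [nsmul_eq_mul] at h
  by_contra hcon
  have hcon := not_le.1 hcon
  have hb : b < 0 := by omega
  have he' : (1 : ℤ) ≤ (e : ℤ) := by exact_mod_cast he
  nlinarith

end Bounds

section Main

/-- The bound attached to one coset representative. -/
def cptBound {k' : Type} [Field k'] [Valued k' Γ₀] (x : GL (Fin 2) k') : ℕ :=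
  (WithZero.log (entryMax x)).natAbs
    + (WithZero.log (Valued.v (x : Matrix (Fin 2) (Fin 2) k').det)).natAbs

/-- **T6.18b `CptC783`** (bounded support). -/
theorem cptC420 : CptC783 := by
  intro k k' _ _ _ _ q l e i s n φ hd
  obtain ⟨F, hF⟩ := hd.supp
  have hs := hd.ext.val_s
  have he := hd.ext.e_pos
  refine ⟨(l : ℤ) * ((∑ x ∈ F, cptBound x : ℕ) : ℤ), ?_⟩
  intro δ γ c hconj hc hc0
  obtain ⟨R, hR1, -, -, hsum⟩ := hc
  -- a representative with `φ y ≠ 0`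
  obtain ⟨y, hyR, hy0⟩ : ∃ y ∈ R, φ y * (cIndex (InU n) (InTwCentC s) y : ℂ) ≠ 0 := by
    apply Finset.exists_ne_zero_of_sum_ne_zero
    rw [← hsum]
    exact hc0
  have hφy : φ y ≠ 0 := left_ne_zero_of_mul hy0
  obtain ⟨x, rfl⟩ := hR1 y hyR
  obtain ⟨x₀, hx₀, u, hu, hyu⟩ := hF _ hφy
  -- trace and determinant of the norm
  have hN : twNorm s l (x⁻¹ * δ * glAut s x) = x⁻¹ * twNorm s l δ * x :=
    twNorm_twConj s l hd.ext.cyc.order δ x
  obtain ⟨g, hg⟩ := isConj_iff.1 hconj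
  have hNδ : twNorm s l δ = g⁻¹ * Matrix.GeneralLinearGroup.map i γ * g := by
    rw [← hg]
    group
  have htr : ((twNorm s l (x⁻¹ * δ * glAut s x) : GL (Fin 2) k') :
      Matrix (Fin 2) (Fin 2) k').trace = i (γ : Matrix (Fin 2) (Fin 2) k).trace := by
    rw [hN, trace_conj_GL, hNδ, trace_conj_GL]
    have : ((Matrix.GeneralLinearGroup.map i γ : GL (Fin 2) k') : Matrix (Fin 2) (Fin 2) k')
        = i.mapMatrix (γ : Matrix (Fin 2) (Fin 2) k) := rfl
    rw [this]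
    exact (AddMonoidHom.map_trace (i : k →+ k') (γ : Matrix (Fin 2) (Fin 2) k)).symm
  have hdet : ((twNorm s l (x⁻¹ * δ * glAut s x) : GL (Fin 2) k') :
      Matrix (Fin 2) (Fin 2) k').det = i (γ : Matrix (Fin 2) (Fin 2) k).det := by
    rw [hN, det_conj_GL, hNδ, det_conj_GL]
    have : ((Matrix.GeneralLinearGroup.map i γ : GL (Fin 2) k') : Matrix (Fin 2) (Fin 2) k')
        = i.mapMatrix (γ : Matrix (Fin 2) (Fin 2) k) := rfl
    rw [this, ← RingHom.map_det]
  -- bounds for `y = x₀ u`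
  have hyE : EntryLe ((x⁻¹ * δ * glAut s x : GL (Fin 2) k') : Matrix (Fin 2) (Fin 2) k')
      (entryMax x₀) := by
    rw [hyu, Units.val_mul]
    have := (entryLe_entryMax x₀).mul (entryLe_of_inU hu)
    rwa [mul_one] at this
  have hyD : Valued.v ((x⁻¹ * δ * glAut s x : GL (Fin 2) k') : Matrix (Fin 2) (Fin 2) k').det
      = Valued.v (x₀ : Matrix (Fin 2) (Fin 2) k').det := by
    rw [hyu, Units.val_mul, Matrix.det_mul, map_mul, val_det_of_inU hu, mul_one]
  have hB0 : cptBound x₀ ≤ ∑ x ∈ F, cptBound x :=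
    Finset.single_le_sum (f := fun x => cptBound x) (fun _ _ => Nat.zero_le _) hx₀
  have hBx : (0 : ℤ) ≤ (l : ℤ) * ((∑ x ∈ F, cptBound x : ℕ) : ℤ) := by positivity
  have hmono : ∀ a : ℕ, a ≤ cptBound x₀ →
      (WithZero.exp ((a : ℤ)) : Γ₀) ^ l
        ≤ WithZero.exp ((l : ℤ) * ((∑ x ∈ F, cptBound x : ℕ) : ℤ)) := by
    intro a ha
    rw [← WithZero.exp_nsmul, WithZero.exp_le_exp, nsmul_eq_mul]
    have h1 : (a : ℤ) ≤ ((∑ x ∈ F, cptBound x : ℕ) : ℤ) := by exact_mod_cast ha.trans hB0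
    have h2 : (0 : ℤ) ≤ (l : ℤ) := by positivity
    nlinarith
  have hx₀det : Valued.v (x₀ : Matrix (Fin 2) (Fin 2) k').det ≠ 0 := by
    rw [Ne, map_eq_zero]
    intro h0
    have h1 : (x₀ : Matrix (Fin 2) (Fin 2) k').det
        * ((x₀⁻¹ : GL (Fin 2) k') : Matrix (Fin 2) (Fin 2) k').det = 1 := by
      rw [← Matrix.det_mul, ← Units.val_mul, mul_inv_cancel, Units.val_one, Matrix.det_one]
    rw [h0, zero_mul] at h1
    exact zero_ne_one h1
  refine ⟨?_, ?_, ?_⟩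
  · -- trace
    apply le_exp_of_pow_le he hBx
    rw [← hd.ext.val_i, ← htr]
    refine ((entryLe_twNorm hs hyE l).trace).trans ?_
    refine le_trans (pow_le_pow_left₀ zero_le (le_exp_natAbs_log (entryMax x₀)) l) ?_
    exact hmono _ (Nat.le_add_right _ _)
  · -- lower bound for the determinant
    apply exp_neg_le_of_le_pow he hBx
    rw [← hd.ext.val_i, ← hdet, val_det_twNorm hs, hyD]
    have h1 := exp_neg_natAbs_log_le hx₀det
    have h2 := hmono _ (Nat.le_add_left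
      (WithZero.log (Valued.v (x₀ : Matrix (Fin 2) (Fin 2) k').det)).natAbs
      (WithZero.log (entryMax x₀)).natAbs)
    -- `exp (-C) ≤ exp (-b)^l ≤ |det x₀|^l`
    refine le_trans ?_ (pow_le_pow_left₀ zero_le h1 l)
    have h3 : (WithZero.exp
        (-((WithZero.log (Valued.v (x₀ : Matrix (Fin 2) (Fin 2) k').det)).natAbs : ℤ)) : Γ₀) ^ l
        = (WithZero.exp
          (((WithZero.log (Valued.v (x₀ : Matrix (Fin 2) (Fin 2) k').det)).natAbs : ℤ)) ^ l)⁻¹ := by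
      rw [WithZero.exp_neg, inv_pow]
    rw [h3, WithZero.exp_neg]
    exact inv_anti₀ (pow_pos WithZero.exp_pos l) h2
  · -- upper bound for the determinant
    apply le_exp_of_pow_le he hBx
    rw [← hd.ext.val_i, ← hdet, val_det_twNorm hs, hyD]
    refine le_trans (pow_le_pow_left₀ zero_le
      (le_exp_natAbs_log (Valued.v (x₀ : Matrix (Fin 2) (Fin 2) k').det)) l) ?_
    exact hmono _ (Nat.le_add_left _ _)

end Main

end Fermat.Agent.LT.T6.H420
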