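import Mathlib
import Fermat.Agent.LT.T6.Spec
import Fermat.Agent.LT.T6.H420.ValTop
import Fermat.Agent.LT.T6.H420.GLTop
import Fermat.Agent.LT.T6.H420.Conj2

/-!
# Row LT, tower T6, leaf T6.08 (helper420): `NormInjC → OrbSumExC`

Existence of the (twisted) orbital integral as a finite orbit sum, [L] §4-§5.

Proof.  Let `δ ∈ GL₂(k')` with `N δ` regular.
1. The `s`-conjugacy class `𝒪` of `δ` is the set of `y` with `tr N y = tr N δ`,
   `det N y = det N δ` (one inclusion: `N (x⁻¹ δ s(x)) = x⁻¹ (N δ) x`; the other: regular `2 × 2`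
   matrices with equal characteristic polynomial are conjugate, and `NormInjC`); it is CLOSED.
2. `GL₂(k')` is a sigma-compact group acting continuously and transitively on the locally
   compact Hausdorff (hence Baire) space `𝒪`; by the open mapping theorem for such actions
   (`smul_singleton_mem_nhds_of_sigmaCompact`) the `U(n)`-orbits are open in `𝒪`.
3. `supp φ ⊆ ⋃_{x ∈ F} x U(n)` is compact, so `𝒪 ∩ supp φ` is covered by finitely many
   `U(n)`-orbits; choose one representative in each.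

Mathlib + T6 Spec only.
-/

set_option autoImplicit false

noncomputable section

namespace Fermat.Agent.LT.T6.H420

open Topology Filter Set Matrix
open scoped Pointwise

section Abstract

variable {G : Type} [Group G]

/-- The `s`-twisted conjugacy class of `δ`. -/
def twClass (s : G →* G) (δ : G) : Set G := {y | ∃ x : G, y = x⁻¹ * δ * s x}

theorem twClass_stable (s : G →* G) (δ : G) {y : G} (hy : y ∈ twClass s δ) (g : G) :
    g * y * (s g)⁻¹ ∈ twClass s δ := by
  obtain ⟨x, rfl⟩ := hy
  refine ⟨x * g⁻¹, ?_⟩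
  rw [map_mul, map_inv]
  group

/-- The twisted conjugacy class as a type, carrying the action `g • y = g y s(g)⁻¹`. -/
def TwOrbit (s : G →* G) (δ : G) : Type := {y : G // y ∈ twClass s δ}

/-- The underlying element. -/
def TwOrbit.val {s : G →* G} {δ : G} (y : TwOrbit s δ) : G := Subtype.val y

instance instMulActionTwOrbit (s : G →* G) (δ : G) : MulAction G (TwOrbit s δ) where
  smul g y := ⟨g * y.1 * (s g)⁻¹, twClass_stable s δ y.2 g⟩
  one_smul y := by
    apply Subtype.ext
    show 1 * y.1 * (s 1)⁻¹ = y.1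
    simp
  mul_smul g h y := by
    apply Subtype.ext
    show g * h * y.1 * (s (g * h))⁻¹ = g * (h * y.1 * (s h)⁻¹) * (s g)⁻¹
    rw [map_mul]
    group

theorem TwOrbit.smul_val {s : G →* G} {δ : G} (g : G) (y : TwOrbit s δ) :
    (g • y).val = g * y.val * (s g)⁻¹ := rfl

instance instIsPretransitiveTwOrbit (s : G →* G) (δ : G) :
    MulAction.IsPretransitive G (TwOrbit s δ) where
  exists_smul_eq := by
    rintro ⟨y₁, x₁, rfl⟩ ⟨y₂, x₂, rfl⟩
    refine ⟨x₂⁻¹ * x₁, ?_⟩
    apply Subtype.ext
    show x₂⁻¹ * x₁ * (x₁⁻¹ * δ * s x₁) * (s (x₂⁻¹ * x₁))⁻¹ = x₂⁻¹ * δ * s x₂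
    rw [map_mul, map_inv]
    group

variable [TopologicalSpace G]

instance instTopologicalSpaceTwOrbit (s : G →* G) (δ : G) : TopologicalSpace (TwOrbit s δ) :=
  inferInstanceAs (TopologicalSpace {y : G // y ∈ twClass s δ})

theorem TwOrbit.isEmbedding_val (s : G →* G) (δ : G) :
    IsEmbedding (TwOrbit.val : TwOrbit s δ → G) := IsEmbedding.subtypeVal

theorem TwOrbit.isClosedEmbedding_val (s : G →* G) (δ : G) (hC : IsClosed (twClass s δ)) :
    IsClosedEmbedding (TwOrbit.val : TwOrbit s δ → G) := hC.isClosedEmbedding_subtypeVal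

variable [IsTopologicalGroup G]

theorem continuousSMul_twOrbit (s : G →* G) (hs : Continuous s) (δ : G) :
    ContinuousSMul G (TwOrbit s δ) where
  continuous_smul := by
    rw [(TwOrbit.isEmbedding_val s δ).continuous_iff]
    have h1 : Continuous fun p : G × TwOrbit s δ => p.1 * p.2.val * (s p.1)⁻¹ := by
      have hv : Continuous (TwOrbit.val : TwOrbit s δ → G) :=
        (TwOrbit.isEmbedding_val s δ).continuous
      exact (continuous_fst.mul (hv.comp continuous_snd)).mul (hs.comp continuous_fst).inv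
    exact h1

/-- **Finitely many `U`-orbits of a closed twisted conjugacy class meet a compact set.** -/
theorem exists_finite_reps [SigmaCompactSpace G] [T2Space G] [LocallyCompactSpace G]
    (s : G →* G) (hs : Continuous s) (U : Subgroup G) (hU : IsOpen (U : Set G))
    (K : Set G) (hK : IsCompact K) (δ : G) (hC : IsClosed (twClass s δ)) :
    ∃ R : Finset G, (∀ y ∈ R, ∃ x : G, y = x⁻¹ * δ * s x) ∧
      (∀ y ∈ R, ∀ y' ∈ R, (∃ u : G, u ∈ U ∧ y' = u⁻¹ * y * s u) → y = y') ∧
      (∀ y : G, (∃ x : G, y = x⁻¹ * δ * s x) → y ∈ K →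
        ∃ y' ∈ R, ∃ u : G, u ∈ U ∧ y = u⁻¹ * y' * s u) := by
  classical
  haveI : ContinuousSMul G (TwOrbit s δ) := continuousSMul_twOrbit s hs δ
  haveI : LocallyCompactSpace (TwOrbit s δ) :=
    (TwOrbit.isClosedEmbedding_val s δ hC).locallyCompactSpace
  haveI : T2Space (TwOrbit s δ) := (TwOrbit.isEmbedding_val s δ).t2Space
  have hnhds : ∀ x : TwOrbit s δ, (U : Set G) • ({x} : Set (TwOrbit s δ)) ∈ 𝓝 x := fun x =>
    smul_singleton_mem_nhds_of_sigmaCompact (hU.mem_nhds U.one_mem) x
  have hK' : IsCompact ((TwOrbit.val : TwOrbit s δ → G) ⁻¹' K) :=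
    (TwOrbit.isClosedEmbedding_val s δ hC).isCompact_preimage hK
  obtain ⟨t, -, ht⟩ := hK'.elim_nhds_subcover
    (fun x => (U : Set G) • ({x} : Set (TwOrbit s δ))) (fun x _ => hnhds x)
  -- the equivalence relation of twisted conjugation by `U`
  let r : Setoid G :=
    { r := fun y y' => ∃ u : G, u ∈ U ∧ y' = u⁻¹ * y * s u
      iseqv :=
        { refl := fun y => ⟨1, U.one_mem, by simp⟩
          symm := by
            rintro y y' ⟨u, hu, rfl⟩
            refine ⟨u⁻¹, U.inv_mem hu, ?_⟩
            rw [map_inv]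
            group
          trans := by
            rintro y y' y'' ⟨u, hu, rfl⟩ ⟨v, hv, rfl⟩
            refine ⟨u * v, U.mul_mem hu hv, ?_⟩
            rw [map_mul]
            group } }
  let f : G → G := fun y => (Quotient.mk r y).out
  have hf : ∀ y, ∃ u : G, u ∈ U ∧ y = u⁻¹ * f y * s u := fun y =>
    Quotient.exact (Quotient.out_eq (Quotient.mk r y))
  have hf' : ∀ y y', (∃ u : G, u ∈ U ∧ y' = u⁻¹ * y * s u) → f y = f y' := fun y y' h =>
    congrArg Quotient.out (Quotient.sound (s := r) h)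
  refine ⟨t.image (fun x => f x.val), ?_, ?_, ?_⟩
  · intro y hy
    obtain ⟨x, -, rfl⟩ := Finset.mem_image.1 hy
    obtain ⟨u, -, hu⟩ := hf x.val
    -- `f x = u x s(u)⁻¹`
    have key : ∀ a b : G, a = u⁻¹ * b * s u → b = u * a * (s u)⁻¹ := by
      intro a b h
      rw [h]
      group
    rw [key _ _ hu]
    exact twClass_stable s δ x.2 u
  · intro y hy y' hy' hyy'
    obtain ⟨x, -, rfl⟩ := Finset.mem_image.1 hy
    obtain ⟨x', -, rfl⟩ := Finset.mem_image.1 hy'
    have h1 : f (f x.val) = f (f x'.val) := hf' _ _ hyy'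
    have h2 : ∀ z, f (f z) = f z := fun z => hf' _ _ (hf z)
    rw [h2, h2] at h1
    exact h1
  · intro y hy hyK
    have hyK' : (⟨y, hy⟩ : TwOrbit s δ) ∈ (TwOrbit.val : TwOrbit s δ → G) ⁻¹' K := hyK
    obtain ⟨x, hxt, hx⟩ := Set.mem_iUnion₂.1 (ht hyK')
    obtain ⟨u, hu, z, hz, huz⟩ := Set.mem_smul.1 hx
    have hzx : z = x := hz
    subst hzx
    have h1 : y = u * z.val * (s u)⁻¹ := by
      have := congrArg TwOrbit.val huz
      exact this.symm
    obtain ⟨w, hw, hwz⟩ := hf z.val
    refine ⟨f z.val, Finset.mem_image.2 ⟨z, hxt, rfl⟩, w * u⁻¹, U.mul_mem hw (U.inv_mem hu), ?_⟩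
    rw [h1, map_mul, map_inv]
    conv_lhs => rw [hwz]
    group

theorem continuous_twN (s : G →* G) (hs : Continuous s) (n : ℕ) : Continuous (twN s n) := by
  induction n with
  | zero => exact continuous_const
  | succ n ih =>
    have : twN s (n + 1) = fun δ => δ * s (twN s n δ) := by
      funext δ
      rfl
    rw [this]
    exact continuous_id.mul (hs.comp ih)

end Abstract

section Main

variable {k k' : Type} [Field k] [Field k'] [Valued k Γ₀] [Valued k' Γ₀]

omit [Valued k Γ₀] [Valued k' Γ₀] in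
/-- The twisted conjugacy class of `δ` with `N δ` regular is cut out by the trace and the
determinant of the norm. -/
theorem twClass_eq_of_normInj (hNI : NormInjC) {l : ℕ} {i : k →+* k'} {s : k' ≃+* k'}
    (hcyc : IsCyclicData k k' l i s) (δ : GL (Fin 2) k') (hreg : IsReg (twNorm s l δ)) :
    twClass (glAut s) δ =
      {y | ((twNorm s l y : GL (Fin 2) k') : Matrix (Fin 2) (Fin 2) k').trace
          = ((twNorm s l δ : GL (Fin 2) k') : Matrix (Fin 2) (Fin 2) k').trace} ∩
      {y | ((twNorm s l y : GL (Fin 2) k') : Matrix (Fin 2) (Fin 2) k').det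
          = ((twNorm s l δ : GL (Fin 2) k') : Matrix (Fin 2) (Fin 2) k').det} := by
  ext y
  constructor
  · rintro ⟨x, rfl⟩
    refine ⟨?_, ?_⟩
    · show ((twNorm s l (x⁻¹ * δ * glAut s x) : GL (Fin 2) k') :
        Matrix (Fin 2) (Fin 2) k').trace = _
      rw [twNorm_twConj s l hcyc.order, trace_conj_GL]
    · show ((twNorm s l (x⁻¹ * δ * glAut s x) : GL (Fin 2) k') :
        Matrix (Fin 2) (Fin 2) k').det = _
      rw [twNorm_twConj s l hcyc.order, det_conj_GL]
  · rintro ⟨h1, h2⟩
    have hconj : IsConj (twNorm s l δ) (twNorm s l y) :=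
      isConj_of_trace_det_eq _ _ h1.symm h2.symm hreg
    exact hNI k k' l i s hcyc δ y hreg hconj

theorem isClosed_twClass (hNI : NormInjC) {q l e : ℕ} {i : k →+* k'} {s : k' ≃+* k'}
    (hk' : IsLocalField k' q) (hext : IsLocalExt k k' l e i s) (δ : GL (Fin 2) k')
    (hreg : IsReg (twNorm s l δ)) : IsClosed (twClass (glAut s) δ) := by
  rw [twClass_eq_of_normInj hNI hext.cyc δ hreg]
  have hs : Continuous (glAut s) := continuous_glAut hk' s hext.val_s
  have hN : Continuous fun y : GL (Fin 2) k' =>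
      ((twNorm s l y : GL (Fin 2) k') : Matrix (Fin 2) (Fin 2) k') :=
    Units.continuous_val.comp (continuous_twN (glAut s) hs l)
  exact (isClosed_eq hN.matrix_trace continuous_const).inter
    (isClosed_eq hN.matrix_det continuous_const)

/-- **T6.08**: existence of the twisted orbital integrals as finite orbit sums, given `NormInjC`
(T6.05). -/
theorem orbSumExC_of_normInjC (hNI : NormInjC) : OrbSumExC := by
  intro k k' _ _ _ _ q l e i s _ hk' hext n φ _ hfs δ hreg
  obtain ⟨F, hF⟩ := hfs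
  haveI : LocallyCompactSpace (GL (Fin 2) k') := locallyCompactSpace_GL hk'
  haveI : SigmaCompactSpace (GL (Fin 2) k') := sigmaCompactSpace_GL hk'
  obtain ⟨ϖ, hϖ⟩ := hk'.unif
  have hs : Continuous (glAut s) := continuous_glAut hk' s hext.val_s
  have hK : IsCompact (⋃ x ∈ F, (fun u : GL (Fin 2) k' => x * u) ''
      ((subU n : Subgroup (GL (Fin 2) k')) : Set (GL (Fin 2) k'))) :=
    F.finite_toSet.isCompact_biUnion fun x _ =>
      (isCompact_subU hk' n).image (continuous_const.mul continuous_id)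
  obtain ⟨R, hR1, hR2, hR3⟩ := exists_finite_reps (glAut s) hs (subU n) (isOpen_subU hϖ n) _ hK δ
    (isClosed_twClass hNI hk' hext δ hreg)
  refine ⟨∑ y ∈ R, φ y * (cIndex (InU n) (InTwCentC s) y : ℂ), R, hR1, hR2, ?_, rfl⟩
  intro y hy hφ
  obtain ⟨x, hx, u, hu, rfl⟩ := hF y hφ
  exact hR3 _ hy (Set.mem_biUnion hx ⟨u, hu, rfl⟩)

end Main

end Fermat.Agent.LT.T6.H420
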