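import Mathlib
import Fermat.Agent.LT.T6.Spec
import Fermat.Agent.LT.T6.H848.NormInj
import Fermat.Agent.LT.T6.H420.OrbSumEx

/-!
# Row LT, tower T6, leaf T6.08 (helper420): `OrbSumExC`, UNCONDITIONAL

`orbSumExC_of_normInjC` (this seat) applied to `normInjC848` (T6.05, helper848, vendored
byte-identical from `origin/helper848@a730c876d`).
-/

set_option autoImplicit false

namespace Fermat.Agent.LT.T6.H420

/-- **T6.08 `OrbSumExC`**, unconditional. -/
theorem orbSumExC420 : OrbSumExC := orbSumExC_of_normInjC Fermat.Agent.LT.T6.H848.normInjC848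

end Fermat.Agent.LT.T6.H420
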